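import Fermat.Agent.Ideles.Abelian
import Mathlib.FieldTheory.AbsoluteGaloisGroup
import Mathlib.FieldTheory.Galois.Profinite

/-!
# The abelianisation of the absolute Galois group

Restriction to the maximal abelian extension has kernel the closure of the commutator subgroup, so
the topological abelianisation is the Galois group of that extension.
-/

set_option autoImplicit false
set_option linter.unusedSectionVars false
set_option linter.style.haveILetI false

noncomputable section

open NumberField IsMulCommutative
open FA.Ideles
open scoped Classical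

namespace FA.AbelianQuad

variable (K : Type) [Field K] [NumberField K]

local notation "Kb" => AlgebraicClosure K
local notation "GK" => AlgebraicClosure K ≃ₐ[K] AlgebraicClosure K

/-- **The kernel of restriction to the maximal abelian extension.** -/
theorem ker_restrict_maxAbelian :
    (AlgEquiv.restrictNormalHom (F := K) (K₁ := Kb) (maxAbelian K)).ker =
      (commutator GK).topologicalClosure := by
  set r := AlgEquiv.restrictNormalHom (F := K) (K₁ := Kb) (maxAbelian K)
  haveI : T2Space (maxAbelian K ≃ₐ[K] maxAbelian K) := krullTopology_t2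
  refine le_antisymm (fun σ hσ => ?_) (Subgroup.topologicalClosure_minimal _ ?_
    ((isClosed_singleton (x := (1 : maxAbelian K ≃ₐ[K] maxAbelian K))).preimage
      (InfiniteGalois.restrictNormalHom_continuous _)))
  · set C : ClosedSubgroup GK := ⟨(commutator GK).topologicalClosure,
      Subgroup.isClosed_topologicalClosure _⟩
    haveI : C.toSubgroup.Normal :=
      Subgroup.is_normal_topologicalClosure (commutator GK)
    show σ ∈ C.toSubgroup
    rw [← InfiniteGalois.fixingSubgroup_fixedField C, IntermediateField.mem_fixingSubgroup_iff]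
    intro y hy
    set M := IntermediateField.fixedField C.toSubgroup
    have hfix : ∀ z ∈ M, ∀ c ∈ C.toSubgroup, c z = z := fun z hz c hc => hz ⟨c, hc⟩
    have hM : ∀ (g : GK), ∀ z ∈ M, g z ∈ M := fun g z hz => by
      rintro ⟨c, hc⟩
      show c (g z) = g z
      have h1 := hfix z hz (g⁻¹ * c * g) (by
        simpa using (inferInstance : C.toSubgroup.Normal).conj_mem c hc g⁻¹)
      have h2 := congrArg g h1
      rwa [← AlgEquiv.mul_apply, ← mul_assoc, mul_inv_cancel_left, AlgEquiv.mul_apply] at h2
    set E : IntermediateField K Kb :=
      IntermediateField.normalClosure K (IntermediateField.adjoin K {y}) Kb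
    haveI : FiniteDimensional K (IntermediateField.adjoin K {y}) :=
      IntermediateField.adjoin.finiteDimensional (Algebra.IsIntegral.isIntegral y)
    have hyM : IntermediateField.adjoin K {y} ≤ M :=
      IntermediateField.adjoin_le_iff.2 (Set.singleton_subset_iff.2 hy)
    have hEM : E ≤ M := normalClosure_le_iff.2 fun f => by
      rintro _ ⟨x, rfl⟩
      obtain ⟨g, hg⟩ : ∃ g : GK, ∀ x : IntermediateField.adjoin K {y}, g (x : Kb) = f x := by
        refine ⟨AlgEquiv.ofBijective (f.liftNormal Kb) (AlgHom.normal_bijective K Kb Kb _),
          fun x => ?_⟩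
        exact f.liftNormal_commutes Kb x
      show f x ∈ M
      rw [← hg x]
      exact hM g x (hyM x.2)
    have hyE : y ∈ E := IntermediateField.le_normalClosure _
      (IntermediateField.mem_adjoin_simple_self K y)
    haveI : IsGalois K E := ⟨⟩
    have hab : IsAbelianGalois K E := by
      refine { is_comm := ⟨fun s t => ?_⟩ }
      obtain ⟨s, rfl⟩ := AlgEquiv.restrictNormalHom_surjective (F := K) (K₁ := E) Kb s
      obtain ⟨t, rfl⟩ := AlgEquiv.restrictNormalHom_surjective (F := K) (K₁ := E) Kb t
      rw [← map_mul, ← map_mul]
      refine AlgEquiv.ext fun z => Subtype.ext ?_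
      refine (AlgEquiv.restrictNormal_commutes _ _ z).trans
        (Eq.trans ?_ (AlgEquiv.restrictNormal_commutes _ _ z).symm)
      show (s * t) (z : Kb) = (t * s) (z : Kb)
      have h1 := hfix z (hEM z.2) ((t * s)⁻¹ * (s * t))
        (Subgroup.le_topologicalClosure _ (by
          rw [commutator_def, show (t * s)⁻¹ * (s * t) = s⁻¹ * t⁻¹ * s⁻¹⁻¹ * t⁻¹⁻¹ by group]
          exact Subgroup.commutator_mem_commutator (Subgroup.mem_top s⁻¹) (Subgroup.mem_top t⁻¹)))
      have h2 := congrArg (t * s) h1
      rwa [← AlgEquiv.mul_apply, mul_inv_cancel_left] at h2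
    have hyA : y ∈ maxAbelian K := le_maxAbelian inferInstance hab hyE
    have h3 := AlgEquiv.restrictNormal_commutes σ (maxAbelian K) ⟨y, hyA⟩
    rw [show σ.restrictNormal (maxAbelian K) = r σ from rfl, MonoidHom.mem_ker.1 hσ] at h3
    exact h3.symm
  · rw [commutator_def, Subgroup.commutator_le]
    intro a _ b _
    rw [MonoidHom.mem_ker, commutatorElement_def]
    simp only [map_mul, map_inv]
    rw [mul_comm' (r a), mul_inv_cancel_right, mul_inv_cancel]

/-- **The abelianised absolute Galois group is the Galois group of the maximal
abelian extension.** -/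
theorem exists_abelianisation_equiv :
    Nonempty (Field.absoluteGaloisGroupAbelianization K ≃ₜ*
      (maxAbelian K ≃ₐ[K] maxAbelian K)) := by
  haveI : T2Space (maxAbelian K ≃ₐ[K] maxAbelian K) := krullTopology_t2
  have hk := ker_restrict_maxAbelian K
  set r := AlgEquiv.restrictNormalHom (F := K) (K₁ := Kb) (maxAbelian K)
  let f : TopologicalAbelianization GK →* (maxAbelian K ≃ₐ[K] maxAbelian K) :=
    QuotientGroup.lift _ r hk.ge
  have hb : Function.Bijective f :=
    ⟨(injective_iff_map_eq_one f).2 fun x hx => by
      obtain ⟨σ, rfl⟩ := QuotientGroup.mk_surjective x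
      exact (QuotientGroup.eq_one_iff _).2 (hk ▸ MonoidHom.mem_ker.2 hx),
      fun y => (AlgEquiv.restrictNormalHom_surjective Kb y).elim fun σ hσ =>
        ⟨QuotientGroup.mk σ, hσ⟩⟩
  have hc : Continuous f := (QuotientGroup.isQuotientMap_mk _).continuous_iff.2
    (InfiniteGalois.restrictNormalHom_continuous _)
  let e := MulEquiv.ofBijective f hb
  exact ⟨{ e with
    continuous_toFun := hc
    continuous_invFun :=
      Continuous.continuous_symm_of_equiv_compact_to_t2 (f := e.toEquiv) hc }⟩

end FA.AbelianQuad

end
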