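import Fermat.Agent.AbelianGaloisQuad.Split
import Fermat.Agent.IdeleClass.Kernel

/-!
# The abelian Galois group from the local units

For a totally complex field of class number one with finitely many units the Artin map makes the
Galois group of the maximal abelian extension the quotient of the product of all local unit groups
by the units of the field.
-/

set_option autoImplicit false
set_option linter.unusedSectionVars false
set_option linter.style.haveILetI false

noncomputable section

open NumberField NumberField.InfinitePlace IsDedekindDomain WithZero IsMulCommutative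
open FA.ArtinRec FA.Ideles FA.IdeleClass
open FA.QuadFormsNF (valued_algebraMap)
open scoped Classical

namespace FA.AbelianQuad

variable (K : Type) [Field K] [NumberField K]

/-- The product of the local unit groups. -/
abbrev UnitPi : Type := ∀ v : HeightOneSpectrum (𝓞 K), (v.adicCompletionIntegers K)ˣ

/-- The units of the field among the local units. -/
def diagUnits : (𝓞 K)ˣ →* UnitPi K :=
  MonoidHom.pi fun v => Units.map (algebraMap (𝓞 K) (v.adicCompletionIntegers K)).toMonoidHom

/-- The unit ideles. -/
def unitFamilyHom : UnitPi K →* Idele K :=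
  MonoidHom.mk' unitFamily fun u u' =>
    idele_ext (fun v => by
      rw [map_mul, unitFamily, unitFamily, unitFamily, finComp_ofFinite, finComp_ofFinite,
        finComp_ofFinite, Pi.mul_apply, map_mul]) fun w => by
      rw [map_mul, unitFamily, unitFamily, unitFamily, infComp_ofFinite, infComp_ofFinite,
        infComp_ofFinite, one_mul]

variable {K}

theorem finComp_unitFamily (u : UnitPi K) (v : HeightOneSpectrum (𝓞 K)) :
    finComp v (unitFamily u) = Units.map (v.adicCompletionIntegers K).subtype.toMonoidHom (u v) :=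
  finComp_ofFinite _ _ v

theorem finComp_diag (ε : (𝓞 K)ˣ) (v : HeightOneSpectrum (𝓞 K)) :
    finComp v (unitFamily (diagUnits K ε)) = finComp v (principal (intUnits ε)) := by
  rw [finComp_unitFamily, finComp_principal]
  exact Units.ext rfl

/-- Class number one: every divisor is principal. -/
theorem isClassSet_empty (h1 : classNumber K = 1) :
    IsClassSet (K := K) (∅ : Finset (HeightOneSpectrum (𝓞 K))) := fun v => by
  haveI : IsPrincipalIdealRing (𝓞 K) := classNumber_eq_one_iff.1 h1
  obtain ⟨π, hπ⟩ := (IsPrincipalIdealRing.principal v.asIdeal).1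
  rw [Ideal.submodule_span_eq] at hπ
  have hπ0 : π ≠ 0 := fun h => v.ne_bot (by rw [hπ, h, Ideal.span_singleton_eq_bot])
  refine ⟨intU π hπ0, fun w _ => ?_⟩
  split_ifs with hwv
  · subst hwv
    rw [ord_intU, ← hπ, multiplicity_self, Nat.cast_one]
  · rw [ord_intU_eq_zero_iff]
    intro hmem
    refine hwv (HeightOneSpectrum.ext (v.isMaximal.eq_of_le w.isPrime.ne_top ?_).symm)
    rw [hπ, Ideal.span_singleton_le_iff_mem]
    exact hmem

/-- **The Artin map on the local units.** -/
theorem exists_artin_equiv [IsTotallyComplex K] [Finite (𝓞 K)ˣ] (h1 : classNumber K = 1) :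
    ∃ e : (UnitPi K ⧸ (diagUnits K).range) ≃ₜ* (maxAbelian K ≃ₐ[K] maxAbelian K),
      ∀ u : UnitPi K, e (QuotientGroup.mk u) = artinAbel (maxAbelian K) (unitFamily u) := by
  haveI := t2Space_galAbel (K := K)
  have hinf : ∀ z : Idele K, (∀ v, finComp v z = 1) → z ∈ posInf K := fun z hz =>
    ⟨hz, fun w hr => absurd hr (not_isReal_iff_isComplex.2 (IsTotallyComplex.isComplex w))⟩
  refine exists_quotient_equiv ((artinAbel (maxAbelian K)).comp (unitFamilyHom K)) (fun g => ?_)
    (continuous_artinAbel.comp continuous_unitFamily) (le_antisymm (fun u hu => ?_) ?_)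
  · obtain ⟨x, rfl⟩ := artinAbel_surjective g
    set k : HeightOneSpectrum (𝓞 K) → ℤ := fun v =>
      -log (Valued.v ((finComp v x : (v.adicCompletion K)ˣ) : v.adicCompletion K))
    obtain ⟨a, ha⟩ := (isClassSet_empty h1).exists_ord k ((finite_valued_ne_one x).subset
      fun w hw h => hw.2 (by simp only [k, h, log_one, neg_zero]))
    have hone : ∀ v, Valued.v ((finComp v (x / principal a) : (v.adicCompletion K)ˣ) :
        v.adicCompletion K) = 1 := fun v => by
      rw [map_div, finComp_principal, Units.val_div_eq_div_val, map_div₀, localEmb_val,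
        valued_algebraMap, (ord_eq_iff v).1 (ha v (Finset.notMem_empty v)), neg_neg,
        exp_log ((Valuation.ne_zero_iff _).2 (finComp v x).ne_zero),
        div_self ((Valuation.ne_zero_iff _).2 (finComp v x).ne_zero)]
    have hint : ∀ v, _ ∧ _ := fun v =>
      (HeightOneSpectrum.adicCompletionIntegers.mem_units_iff_valued_eq_one (K := K) (v := v)
        (a := finComp v (x / principal a))).2 (hone v)
    refine ⟨fun v => ⟨⟨_, (hint v).1⟩, ⟨_, (hint v).2⟩, Subtype.ext (Units.mul_inv _),
      Subtype.ext (Units.inv_mul _)⟩, ?_⟩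
    show artinAbel (maxAbelian K) (unitFamily _) = _
    set y := unitFamily (K := K) _
    have hz : x / principal a / y ∈ posInf K := hinf _ fun v => by
      rw [map_div, div_eq_one, finComp_unitFamily]
      exact Units.ext rfl
    have h2 := artinAbel_posInf hz
    rw [map_div, map_div, artinAbel_principal, div_one, div_eq_one] at h2
    exact h2.symm
  · have h2 : unitFamily u ∈ (artinAbel (K := K) (maxAbelian K)).ker := hu
    rw [ker_artinAbel_of_finite_units] at h2
    obtain ⟨_, ⟨a, rfl⟩, z, hz, h⟩ := Subgroup.mem_sup.1 h2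
    have hc : ∀ v, finComp v (principal a) = finComp v (unitFamily u) := fun v => by
      rw [← h, map_mul, hz.1 v, mul_one]
    obtain ⟨ε, rfl⟩ := exists_intUnits_eq (x := a) fun v => (ord_eq_iff v).2 (by
      rw [← valued_algebraMap v, ← localEmb_val, ← finComp_principal, hc, finComp_unitFamily,
        neg_zero, exp_zero]
      exact (HeightOneSpectrum.adicCompletionIntegers.mem_units_iff_valued_eq_one (K := K)
        (v := v)).1 ⟨(u v : v.adicCompletionIntegers K).2,
          ((u v)⁻¹ : (v.adicCompletionIntegers K)ˣ).1.2⟩)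
    exact ⟨ε, funext fun v => Units.map_injective
      (f := (v.adicCompletionIntegers K).subtype.toMonoidHom)
      Subtype.val_injective (by rw [← finComp_unitFamily, ← finComp_unitFamily, finComp_diag, hc])⟩
  · rintro _ ⟨ε, rfl⟩
    rw [MonoidHom.mem_ker]
    show artinAbel (maxAbelian K) (unitFamily (diagUnits K ε)) = 1
    have h2 := artinAbel_posInf (hinf (unitFamily (diagUnits K ε) / principal (intUnits ε)) fun v =>
      by rw [map_div, finComp_diag, div_self'])
    rwa [map_div, artinAbel_principal, div_one] at h2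

/-- Every prime of the field lies over one rational prime. -/
theorem exists_prime_mem (v : HeightOneSpectrum (𝓞 K)) :
    ∃! p : Nat.Primes, ((p : ℕ) : 𝓞 K) ∈ v.asIdeal := by
  haveI : Finite (𝓞 K ⧸ v.asIdeal) := Ideal.finiteQuotientOfFreeOfNeBot _ v.ne_bot
  haveI : v.asIdeal.IsMaximal := v.isMaximal
  haveI := ringChar.charP (𝓞 K ⧸ v.asIdeal)
  have hprime : (ringChar (𝓞 K ⧸ v.asIdeal)).Prime :=
    CharP.char_is_prime (𝓞 K ⧸ v.asIdeal) _
  have hmem : ((ringChar (𝓞 K ⧸ v.asIdeal) : ℕ) : 𝓞 K) ∈ v.asIdeal := by
    rw [← Ideal.Quotient.eq_zero_iff_mem, map_natCast, CharP.cast_eq_zero]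
  refine ⟨⟨_, hprime⟩, hmem, fun q hq => ?_⟩
  haveI : Fact (q : ℕ).Prime := ⟨q.2⟩
  have h1 : (((ringChar (𝓞 K ⧸ v.asIdeal) : ℕ) : ℤ) : 𝓞 K) ∈ v.asIdeal := by
    rwa [Int.cast_natCast]
  exact Subtype.ext ((Nat.prime_dvd_prime_iff_eq q.2 hprime).1
    (Int.natCast_dvd_natCast.1 ((intCast_mem_iff v.isPrime.ne_top hq).1 h1)))

/-- The units at the primes over `p`, for all `p`. -/
abbrev LocPi (K : Type) [Field K] [NumberField K] : Type := ∀ p : Nat.Primes, LocU K (p : ℕ)

instance fact_primes (p : Nat.Primes) : Fact (p : ℕ).Prime := ⟨p.2⟩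

/-- **The local units prime by prime.** -/
theorem exists_regroup :
    ∃ e : UnitPi K ≃ₜ* LocPi K, ∀ ε : (𝓞 K)ˣ,
      e (diagUnits K ε) = fun p : Nat.Primes => unitsLoc K (p : ℕ) ε := by
  set f : (Σ p : Nat.Primes, Over K (p : ℕ)) ≃ HeightOneSpectrum (𝓞 K) :=
    Equiv.ofBijective (fun x => x.2.1) ⟨fun x y h => by
      obtain ⟨p, v, hv⟩ := x
      obtain ⟨q, w, hw⟩ := y
      obtain rfl : v = w := h
      obtain rfl := (exists_prime_mem v).unique hv hw
      rfl, fun v => by
      obtain ⟨p, hp, -⟩ := exists_prime_mem v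
      exact ⟨⟨p, v, hp⟩, rfl⟩⟩
  refine ⟨(piReindex f fun v => (v.adicCompletionIntegers K)ˣ).symm.trans
    (piSigma fun (p : Nat.Primes) (v : Over K (p : ℕ)) => (v.1.adicCompletionIntegers K)ˣ),
    fun ε => rfl⟩

end FA.AbelianQuad

end
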