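import Fermat.Agent.AbelianGaloisQuad.PowLift
import Fermat.Agent.IdeleClass.Compact
import Mathlib.NumberTheory.Multiplicity

/-!
# The units at the primes over a rational prime

For a field of degree two the units of the completions at the primes over `p` together are a finite
group times `ℤ_p × ℤ_p`: the elements congruent to `1` modulo `p ^ 2` are generated, layer by layer,
by `1 + p ^ 2 b` for a basis `b` of the integers.
-/

set_option autoImplicit false
set_option linter.unusedSectionVars false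
set_option linter.style.haveILetI false

noncomputable section

open NumberField IsDedekindDomain WithZero
open FA.ArtinRec
open FA.QuadFormsNF (valued_algebraMap exists_element_near)
open scoped Classical

namespace FA.AbelianQuad

variable (K : Type) [Field K] [NumberField K] (p : ℕ) [hp : Fact p.Prime]

/-- The primes over `p`. -/
abbrev Over : Type := {v : HeightOneSpectrum (𝓞 K) // (p : 𝓞 K) ∈ v.asIdeal}

instance finite_over : Finite (Over K p) :=
  ((Ideal.finite_factors (I := Ideal.span {(p : 𝓞 K)})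
    (by simpa using hp.out.ne_zero)).subset fun v (hv : (p : 𝓞 K) ∈ v.asIdeal) =>
      Ideal.dvd_span_singleton.2 hv).to_subtype

/-- The integers of the completions over `p`. -/
abbrev Loc : Type := ∀ v : Over K p, v.1.adicCompletionIntegers K

/-- The units at the primes over `p`. -/
abbrev LocU : Type := ∀ v : Over K p, (v.1.adicCompletionIntegers K)ˣ

variable {K p}

/-- An integer of the field in the completions over `p`. -/
def toLoc : 𝓞 K →+* Loc K p := Pi.ringHom fun v => algebraMap (𝓞 K) (v.1.adicCompletionIntegers K)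

theorem coe_toLoc (r : 𝓞 K) (v : Over K p) :
    ((toLoc r v : v.1.adicCompletionIntegers K) : v.1.adicCompletion K) =
      algebraMap K (v.1.adicCompletion K) (r : K) := rfl

theorem valued_toLoc (r : 𝓞 K) (v : Over K p) :
    Valued.v ((toLoc r v : v.1.adicCompletionIntegers K) : v.1.adicCompletion K) =
      v.1.valuation K (r : K) := by
  rw [coe_toLoc, valued_algebraMap]

theorem valued_natCast_lt (v : Over K p) :
    Valued.v (((p : v.1.adicCompletionIntegers K)) : v.1.adicCompletion K) < 1 := by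
  rw [← map_natCast (algebraMap (𝓞 K) (v.1.adicCompletionIntegers K))]
  show Valued.v (algebraMap K (v.1.adicCompletion K) (((p : 𝓞 K)) : K)) < 1
  rw [valued_algebraMap]
  exact (v.1.valuation_lt_one_iff_mem _).2 v.2

theorem dvd_iff_valued (v : Over K p) {x y : v.1.adicCompletionIntegers K} :
    x ∣ y ↔ Valued.v (y : v.1.adicCompletion K) ≤ Valued.v (x : v.1.adicCompletion K) :=
  (Valuation.Integers.dvd_iff_le
    (HeightOneSpectrum.adicCompletionIntegers.integers (K := K) (v := v.1)))

theorem natCast_ne_zero_loc (v : Over K p) : (p : v.1.adicCompletionIntegers K) ≠ 0 := by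
  haveI := FA.QuadFormsNF.charZero_completion v.1
  exact fun h => hp.out.ne_zero (Nat.cast_eq_zero (R := v.1.adicCompletion K).1
    (congrArg Subtype.val h))

/-- Powers of `p` dividing everything. -/
theorem eq_zero_of_forall_dvd (v : Over K p) {y : v.1.adicCompletionIntegers K}
    (h : ∀ n, (p : v.1.adicCompletionIntegers K) ^ n ∣ y) : y = 0 := by
  by_contra hy
  have hy0 : Valued.v (y : v.1.adicCompletion K) ≠ 0 :=
    (Valuation.ne_zero_iff _).2 fun e => hy (Subtype.ext e)
  have hlt := valued_natCast_lt v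
  have hp0 : Valued.v ((p : v.1.adicCompletionIntegers K) : v.1.adicCompletion K) ≠ 0 :=
    (Valuation.ne_zero_iff _).2 fun e => natCast_ne_zero_loc v (Subtype.ext e)
  obtain ⟨a, ha⟩ : ∃ a : ℤ, Valued.v (y : v.1.adicCompletion K) = exp a :=
    ⟨_, (exp_log hy0).symm⟩
  obtain ⟨b, hb⟩ : ∃ b : ℤ, Valued.v ((p : v.1.adicCompletionIntegers K) : v.1.adicCompletion K) =
      exp b := ⟨_, (exp_log hp0).symm⟩
  rw [hb, ← exp_zero, exp_lt_exp] at hlt
  have h1 := (dvd_iff_valued v).1 (h ((-a).toNat + 1))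
  rw [SubmonoidClass.coe_pow, map_pow, hb, ha, ← exp_nsmul, exp_le_exp, nsmul_eq_mul] at h1
  push_cast at h1
  nlinarith [Int.self_le_toNat (-a)]

/-- **Integers of the field are dense.** -/
theorem exists_sub_dvd (y : Loc K p) (m : ℕ) :
    ∃ r : 𝓞 K, ∀ v, (p : v.1.adicCompletionIntegers K) ^ m ∣ y v - toLoc r v := by
  haveI := Fintype.ofFinite (Over K p)
  set e : Over K p → ℕ := fun v =>
    (-log (Valued.v (((p : v.1.adicCompletionIntegers K) ^ m : v.1.adicCompletionIntegers K) :
      v.1.adicCompletion K))).toNat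
  have hloc : ∀ v : Over K p, ∃ r : 𝓞 K, ∀ r' : 𝓞 K, r' - r ∈ v.1.asIdeal ^ (e v + 1) →
      Valued.v (algebraMap K (v.1.adicCompletion K) (r' : K) - (y v : v.1.adicCompletion K)) ≤
        exp (-((e v + 1 : ℕ) : ℤ)) := fun v => by
    obtain ⟨b, hb⟩ := exists_element_near v.1 (y v : v.1.adicCompletion K) (e v + 1)
    have hb1 : v.1.valuation K (b : K) ≤ 1 := by
      rw [← valued_algebraMap v.1,
        ← add_sub_cancel (y v : v.1.adicCompletion K) (algebraMap K (v.1.adicCompletion K) (b : K))]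
      refine Valuation.map_add_le _
        ((HeightOneSpectrum.mem_adicCompletionIntegers (𝓞 K) K v.1).1 (y v).2) (hb.trans ?_)
      rw [← exp_zero, exp_le_exp]
      omega
    obtain ⟨r, hr⟩ := FA.IdeleClass.exists_integer_near_any v.1 (e v) hb1
    refine ⟨r, fun r' hr' => ?_⟩
    rw [← sub_add_sub_cancel _ (algebraMap K (v.1.adicCompletion K) (b : K))]
    refine Valuation.map_add_le _ ?_ hb
    rw [← map_sub, valued_algebraMap]
    exact hr r' hr'
  choose r hr using hloc
  obtain ⟨R, hR⟩ := IsDedekindDomain.exists_forall_sub_mem_ideal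
      (s := (Finset.univ : Finset (Over K p)))
    (fun v => v.1.asIdeal) (fun v => e v + 1) (fun v _ => v.1.prime)
    (fun v _ w _ hvw h => hvw (Subtype.ext (HeightOneSpectrum.ext h))) fun v => r v.1
  refine ⟨R, fun v => (dvd_iff_valued v).2 ?_⟩
  rw [AddSubgroupClass.coe_sub, coe_toLoc, Valuation.map_sub_swap]
  refine (hr v R (hR v (Finset.mem_univ v))).trans ?_
  have hne : Valued.v (((p : v.1.adicCompletionIntegers K) ^ m : v.1.adicCompletionIntegers K) :
      v.1.adicCompletion K) ≠ 0 :=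
    (Valuation.ne_zero_iff _).2 fun h => pow_ne_zero m (natCast_ne_zero_loc v) (Subtype.ext h)
  rw [← exp_log hne, exp_le_exp]
  simp only [e]
  omega

/-- Divisibility at all primes over `p` is divisibility. -/
theorem dvd_of_forall_dvd {r : 𝓞 K} {m : ℕ}
    (h : ∀ v : Over K p, (p : v.1.adicCompletionIntegers K) ^ m ∣ toLoc r v) :
    (p : 𝓞 K) ^ m ∣ r := by
  have hpK : ((p : K) ^ m) ≠ 0 := pow_ne_zero _ (Nat.cast_ne_zero.2 hp.out.ne_zero)
  obtain ⟨s, hs⟩ := HeightOneSpectrum.mem_integers_of_valuation_le_one K ((r : K) / (p : K) ^ m)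
    fun v => by
      rw [map_div₀, map_pow, div_le_one₀ (pow_pos (zero_lt_iff.2 ((Valuation.ne_zero_iff _).2
        (Nat.cast_ne_zero.2 hp.out.ne_zero))) _)]
      by_cases hv : (p : 𝓞 K) ∈ v.asIdeal
      · have h1 := (dvd_iff_valued ⟨v, hv⟩).1 (h ⟨v, hv⟩)
        rw [valued_toLoc, SubmonoidClass.coe_pow, map_pow,
          ← map_natCast (algebraMap (𝓞 K) (v.adicCompletionIntegers K))] at h1
        refine h1.trans_eq ?_
        congr 1
        show Valued.v (algebraMap K (v.adicCompletion K) (((p : 𝓞 K)) : K)) = _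
        rw [valued_algebraMap, show (((p : 𝓞 K)) : K) = (p : K) from
          map_natCast (algebraMap (𝓞 K) K) p]
      · rw [show v.valuation K (p : K) = 1 by
          rw [← map_natCast (algebraMap (𝓞 K) K)]
          exact le_antisymm (v.valuation_le_one _) (not_lt.1 fun h1 =>
            hv ((v.valuation_lt_one_iff_mem _).1 h1)), one_pow]
        exact v.valuation_le_one r
  refine ⟨s, RingOfIntegers.ext ?_⟩
  show algebraMap (𝓞 K) K r = algebraMap (𝓞 K) K ((p : 𝓞 K) ^ m * s)
  rw [map_mul, map_pow, map_natCast, hs]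
  exact (mul_div_cancel₀ _ hpK).symm

/-! ### The filtration -/

variable (K p) in
/-- The units congruent to `1` modulo `p ^ (n + 2)`. -/
def lvl (n : ℕ) : Subgroup (LocU K p) :=
  ⨅ v : Over K p, ((Units.map (Ideal.Quotient.mk (Ideal.span
    {(p : v.1.adicCompletionIntegers K) ^ (n + 2)})).toMonoidHom).comp
      (Pi.evalMonoidHom (fun v : Over K p => (v.1.adicCompletionIntegers K)ˣ) v)).ker

theorem mem_lvl {n : ℕ} {x : LocU K p} :
    x ∈ lvl K p n ↔ ∀ v, (p : v.1.adicCompletionIntegers K) ^ (n + 2) ∣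
      (x v : v.1.adicCompletionIntegers K) - 1 := by
  rw [lvl, Subgroup.mem_iInf]
  refine forall_congr' fun v => ?_
  rw [MonoidHom.mem_ker, Units.ext_iff, ← Ideal.mem_span_singleton,
    ← Ideal.Quotient.eq_zero_iff_mem, map_sub, map_one, sub_eq_zero]
  rfl

theorem lvl_antitone : Antitone (lvl K p) := fun a b hab x hx =>
  mem_lvl.2 fun v => (pow_dvd_pow _ (by omega)).trans (mem_lvl.1 hx v)

theorem isOpen_lvl (n : ℕ) : IsOpen (lvl K p n : Set (LocU K p)) := by
  have e : (lvl K p n : Set (LocU K p)) = ⋂ v : Over K p,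
      (fun x : LocU K p => (((x v : v.1.adicCompletionIntegers K) : v.1.adicCompletion K) - 1) /
        ((p : v.1.adicCompletionIntegers K) ^ (n + 2) : v.1.adicCompletionIntegers K)) ⁻¹'
          (v.1.adicCompletionIntegers K : Set (v.1.adicCompletion K)) := by
    ext x
    rw [SetLike.mem_coe, mem_lvl, Set.mem_iInter]
    refine forall_congr' fun v => ?_
    have hc : ((((p : v.1.adicCompletionIntegers K) ^ (n + 2) : v.1.adicCompletionIntegers K)) :
        v.1.adicCompletion K) ≠ 0 :=
      fun h => pow_ne_zero _ (natCast_ne_zero_loc v) (Subtype.ext h)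
    rw [Set.mem_preimage]
    constructor
    · rintro ⟨y, hy⟩
      have h1 := congrArg (fun t : v.1.adicCompletionIntegers K => (t : v.1.adicCompletion K)) hy
      rw [show (((x v : v.1.adicCompletionIntegers K) : v.1.adicCompletion K) - 1) = _ from h1]
      simp only [MulMemClass.coe_mul, mul_div_cancel_left₀ _ hc]
      exact y.2
    · intro hy
      refine ⟨⟨_, hy⟩, Subtype.ext ?_⟩
      show ((x v : v.1.adicCompletionIntegers K) : v.1.adicCompletion K) - 1 = _
      rw [MulMemClass.coe_mul, mul_div_cancel₀ _ hc]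
  rw [e]
  exact isOpen_iInter_of_finite fun v => (Valued.isOpen_valuationSubring _).preimage
    (((continuous_subtype_val.comp (Units.continuous_val.comp (continuous_apply v))).sub
      continuous_const).div_const _)

theorem lvl_separated (x : LocU K p) (h : ∀ n, x ∈ lvl K p n) : x = 1 :=
  funext fun v => Units.ext (sub_eq_zero.1 (eq_zero_of_forall_dvd v fun n =>
    (pow_dvd_pow _ (Nat.le_add_right n 2)).trans (mem_lvl.1 (h n) v)))

/-- Congruent to `1 + p ^ (n + 2) r` one step further. -/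
def Cong (n : ℕ) (x : LocU K p) (r : 𝓞 K) : Prop :=
  ∀ v, (p : v.1.adicCompletionIntegers K) ^ (n + 3) ∣
    (x v : v.1.adicCompletionIntegers K) - (1 + (p : v.1.adicCompletionIntegers K) ^ (n + 2) *
      toLoc r v)

theorem Cong.mem {n : ℕ} {x : LocU K p} {r : 𝓞 K} (h : Cong n x r) : x ∈ lvl K p n :=
  mem_lvl.2 fun v => by
    have h1 := dvd_add ((pow_dvd_pow _ (Nat.le_succ (n + 2))).trans (h v))
      (dvd_mul_right ((p : v.1.adicCompletionIntegers K) ^ (n + 2)) (toLoc r v))
    rwa [show ∀ a b : v.1.adicCompletionIntegers K, a - (1 + b) + b = a - 1 from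
      fun a b => by ring] at h1

theorem Cong.one (n : ℕ) : Cong n (1 : LocU K p) 0 := fun v => by simp

theorem Cong.mul {n : ℕ} {x y : LocU K p} {r s : 𝓞 K} (hx : Cong n x r) (hy : Cong n y s) :
    Cong n (x * y) (r + s) := fun v => by
  set P := (p : v.1.adicCompletionIntegers K)
  obtain ⟨a, ha⟩ := hx v
  obtain ⟨b, hb⟩ := hy v
  rw [Pi.mul_apply, Units.val_mul, map_add, Pi.add_apply,
    eq_add_of_sub_eq ha, eq_add_of_sub_eq hb]
  exact ⟨a + b + P ^ (n + 1) * toLoc r v * toLoc s v + P ^ (n + 2) * a * toLoc s v +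
    P ^ (n + 2) * b * toLoc r v + P ^ (n + 3) * a * b, by ring⟩

theorem Cong.inv {n : ℕ} {x : LocU K p} {r : 𝓞 K} (hx : Cong n x r) : Cong n x⁻¹ (-r) :=
    fun v => by
  set P := (p : v.1.adicCompletionIntegers K)
  obtain ⟨a, ha⟩ := hx v
  obtain ⟨c, hc⟩ : P ∣ (x v : v.1.adicCompletionIntegers K) - 1 :=
    (dvd_pow_self P (Nat.succ_ne_zero _)).trans (mem_lvl.1 hx.mem v)
  rw [Pi.inv_apply, map_neg, Pi.neg_apply]
  refine ⟨((x v)⁻¹ : (v.1.adicCompletionIntegers K)ˣ).1 * (c * toLoc r v - a), ?_⟩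
  have hinv := Units.inv_mul (x v)
  simp only [P] at hc ⊢
  linear_combination (norm := ring_nf) (((x v)⁻¹ : (v.1.adicCompletionIntegers K)ˣ).1) *
    ((p : v.1.adicCompletionIntegers K) ^ (n + 2) * toLoc r v * hc - ha) +
    (1 - (p : v.1.adicCompletionIntegers K) ^ (n + 2) * toLoc r v) * hinv

theorem Cong.zpow {n : ℕ} {x : LocU K p} {r : 𝓞 K} (hx : Cong n x r) (a : ℤ) :
    Cong n (x ^ a) (a • r) := by
  induction a using Int.induction_on with
  | zero => simpa using Cong.one n
  | succ k ih =>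
    rw [zpow_add_one, add_smul, one_smul]
    exact ih.mul hx
  | pred k ih =>
    rw [zpow_sub_one, sub_smul, one_smul, sub_eq_add_neg]
    exact ih.mul hx.inv

/-- The `p`-th power moves one layer. -/
theorem Cong.pow {n : ℕ} {x : LocU K p} {r : 𝓞 K} (hx : Cong n x r) :
    Cong (n + 1) (x ^ p) r := fun v => by
  set P := (p : v.1.adicCompletionIntegers K)
  obtain ⟨a, ha⟩ := hx v
  set t := toLoc r v + P * a
  have hxv : (x v : v.1.adicCompletionIntegers K) = 1 + P ^ (n + 2) * t := by
    rw [eq_add_of_sub_eq ha]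
    ring
  obtain ⟨c, hc⟩ := sq_dvd_add_pow_sub_sub (P ^ (n + 2) * t) (1 : v.1.adicCompletionIntegers K) p
  rw [one_pow, one_mul, one_pow] at hc
  rw [Pi.pow_apply, Units.val_pow_eq_pow_val, hxv]
  refine ⟨a + P ^ n * t ^ 2 * c, ?_⟩
  simp only [P, t] at hc ⊢
  linear_combination (norm := ring_nf) hc

theorem Cong.pow_pow {x : LocU K p} {r : 𝓞 K} (hx : Cong 0 x r) :
    ∀ n, Cong n (x ^ (p ^ n)) r
  | 0 => by rwa [pow_zero, pow_one]
  | n + 1 => by
    rw [pow_succ, pow_mul]
    exact (Cong.pow_pow hx n).pow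

/-- The generator of a layer. -/
theorem exists_gen (r : 𝓞 K) : ∃ g : LocU K p, Cong 0 g r := by
  have hu : ∀ v : Over K p,
      IsUnit (1 + (p : v.1.adicCompletionIntegers K) ^ 2 * toLoc r v) := fun v => by
    rw [HeightOneSpectrum.adicCompletionIntegers.isUnit_iff_valued_eq_one]
    push_cast
    rw [Valuation.map_add_eq_of_lt_left, map_one]
    rw [map_one, map_mul, map_pow]
    exact lt_of_le_of_lt (mul_le_of_le_one_right zero_le (toLoc r v).2)
      (pow_lt_one₀ zero_le (valued_natCast_lt v) two_ne_zero)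
  refine ⟨fun v => (hu v).unit, fun v => ?_⟩
  rw [IsUnit.unit_spec]
  simp

/-- **The units over `p`.** -/
theorem exists_locU_split (hK : Module.finrank ℚ K = 2) :
    ∃ F : Subgroup (LocU K p), Finite F ∧ (∀ x : LocU K p, IsOfFinOrder x → x ∈ F) ∧
      ∃ e : (F × Multiplicative (ℤ_[p] × ℤ_[p])) ≃ₜ* LocU K p,
        ∀ f : F, e (f, 1) = (f : LocU K p) := by
  have hcard : Fintype.card (Module.Free.ChooseBasisIndex ℤ (𝓞 K)) = 2 := by
    rw [← Module.finrank_eq_card_chooseBasisIndex, RingOfIntegers.rank, hK]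
  set B : Module.Basis (Fin 2) ℤ (𝓞 K) :=
    (RingOfIntegers.basis K).reindex (Fintype.equivFinOfCardEq hcard)
  obtain ⟨g₁, hg₁⟩ := exists_gen (p := p) (B 0)
  obtain ⟨g₂, hg₂⟩ := exists_gen (p := p) (B 1)
  refine exists_split lvl_antitone isOpen_lvl lvl_separated (g₁ := g₁) (g₂ := g₂)
    (fun n => (hg₁.pow_pow n).mem) (fun n => (hg₂.pow_pow n).mem) ?_ ?_
  · intro n
    induction n with
    | zero => exact fun a b _ => ⟨by simp, by simp⟩
    | succ n ih =>
      intro a b h
      obtain ⟨⟨a', rfl⟩, ⟨b', rfl⟩⟩ := ih a b (lvl_antitone n.le_succ h)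
      rw [zpow_mul, zpow_mul, zpow_natCast, zpow_natCast] at h
      have hc := ((hg₁.pow_pow n).zpow a').mul ((hg₂.pow_pow n).zpow b')
      have hdvd : (p : 𝓞 K) ^ 1 ∣ a' • B 0 + b' • B 1 := dvd_of_forall_dvd fun v => by
        have h2 := dvd_sub (mem_lvl.1 h v) (hc v)
        rw [sub_sub_sub_cancel_left, add_sub_cancel_left, pow_succ _ (n + 2)] at h2
        rw [pow_one]
        exact (mul_dvd_mul_iff_left (pow_ne_zero _ (natCast_ne_zero_loc v))).1 h2
      rw [pow_one] at hdvd
      obtain ⟨c, hc'⟩ := hdvd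
      have hco := congrArg B.repr hc'
      rw [← nsmul_eq_mul, ← natCast_zsmul, map_zsmul, map_add, map_zsmul, map_zsmul,
        B.repr_self, B.repr_self] at hco
      have h0 := DFunLike.congr_fun hco 0
      have h1 := DFunLike.congr_fun hco 1
      simp at h0 h1
      exact ⟨⟨B.repr c 0, by rw [h0, pow_succ]; push_cast; ring⟩,
        ⟨B.repr c 1, by rw [h1, pow_succ]; push_cast; ring⟩⟩
  · intro x hx n
    induction n with
    | zero => exact ⟨0, 0, by simpa using hx⟩
    | succ n ih =>
      obtain ⟨a, b, hab⟩ := ih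
      choose y hy using fun v => mem_lvl.1 hab v
      obtain ⟨r, hr⟩ := exists_sub_dvd y 1
      have hcong : Cong n (x / (g₁ ^ a * g₂ ^ b)) r := fun v => by
        rw [show ∀ t s : v.1.adicCompletionIntegers K, t - (1 + s) = t - 1 - s from
          fun t s => by ring, hy v, ← mul_sub, pow_succ _ (n + 2)]
        exact mul_dvd_mul_left _ (by simpa using hr v)
      have hg : Cong n ((g₁ ^ (p ^ n)) ^ (B.repr r 0) * (g₂ ^ (p ^ n)) ^ (B.repr r 1)) r := by
        have h1 := ((hg₁.pow_pow n).zpow (B.repr r 0)).mul ((hg₂.pow_pow n).zpow (B.repr r 1))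
        rwa [show B.repr r 0 • B 0 + B.repr r 1 • B 1 = r by
          rw [← Fin.sum_univ_two (fun i => B.repr r i • B i)]; exact B.sum_repr r] at h1
      refine ⟨a + (p ^ n : ℕ) * B.repr r 0, b + (p ^ n : ℕ) * B.repr r 1, mem_lvl.2 fun v => ?_⟩
      have h2 := (hcong.mul hg.inv) v
      rw [add_neg_cancel, map_zero (toLoc : 𝓞 K →+* Loc K p), Pi.zero_apply, mul_zero,
        add_zero] at h2
      rw [zpow_add, zpow_add, zpow_mul, zpow_mul, zpow_natCast, zpow_natCast,
        mul_mul_mul_comm, ← div_div, div_eq_mul_inv (x / (g₁ ^ a * g₂ ^ b))]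
      exact h2

end FA.AbelianQuad

end
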