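import Fermat.Agent.AbelianGaloisQuad.Artin
import Fermat.Agent.ChowlaSelberg.Field
import Mathlib.NumberTheory.LSeries.PrimesInAP

/-!
# The abelian Galois group of an imaginary quadratic field of class number one

The local units prime by prime are the finite groups `F_p` times `ℤ_p × ℤ_p`. The units of the
field are a direct factor of one `F_p`, and the remaining finite groups have cyclic groups of all
prime power orders as factors infinitely often.
-/

set_option autoImplicit false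
set_option linter.unusedSectionVars false
set_option linter.style.haveILetI false

noncomputable section

open NumberField IsDedekindDomain Module IsMulCommutative
open FA.ArtinRec FA.Ideles FA.IdeleClass
open scoped Classical

namespace FA.AbelianQuad

/-- Products of isomorphisms. -/
def prodCongrₜ {G G' H H' : Type*} [Group G] [TopologicalSpace G] [Group G'] [TopologicalSpace G']
    [Group H] [TopologicalSpace H] [Group H'] [TopologicalSpace H'] (e : G ≃ₜ* G') (f : H ≃ₜ* H') :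
    G × H ≃ₜ* G' × H' :=
  { e.toMulEquiv.prodCongr f.toMulEquiv with
    continuous_toFun := e.continuous.prodMap f.continuous
    continuous_invFun := e.symm.continuous.prodMap f.symm.continuous }

/-- **Primes `p` with `p - 1` divisible exactly by `q`.** -/
theorem infinite_good_primes {D : ℕ} (hD : D.Prime) (hD2 : D ≠ 2) {q : ℕ} (hq : q ≠ 0) :
    {p : Nat.Primes | ((p : ℕ) ≠ 2 ∧ (p : ℕ) % D = 1) ∧ q ∣ (p : ℕ) - 1 ∧
      (((p : ℕ) - 1) / q).Coprime q}.Infinite := by
  obtain ⟨t, ht1, ht2⟩ : ∃ t : ℕ, t ≡ 1 [MOD q] ∧ D ∣ q * t := by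
    by_cases hDq : D ∣ q
    · exact ⟨1, rfl, hDq.mul_right 1⟩
    · obtain ⟨t, h1, h2⟩ := Nat.chineseRemainder ((hD.coprime_iff_not_dvd.2 hDq).symm) 1 0
      exact ⟨t, h1, (Nat.modEq_zero_iff_dvd.1 h2).mul_left q⟩
  set a := 1 + q * t with hadef
  have haD : a % D = 1 := by
    rw [hadef, Nat.add_mod, Nat.dvd_iff_mod_eq_zero.1 ht2, add_zero, Nat.mod_mod,
      Nat.one_mod_eq_one.2 hD.ne_one]
  have hcop : a.Coprime (q * q * D) := by
    have h1 : a.Coprime q := (Nat.coprime_add_mul_left_left 1 q t).2 (Nat.coprime_one_left q)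
    have h2 : a.Coprime D := by
      obtain ⟨c, hc⟩ := ht2
      rw [hadef, hc]
      exact (Nat.coprime_add_mul_left_left 1 D c).2 (Nat.coprime_one_left D)
    exact (h1.mul_right h1).mul_right h2
  have hM : q * q * D ≠ 0 := by simp [hq, hD.ne_zero]
  refine Set.Infinite.of_image ((↑) : Nat.Primes → ℕ)
    ((Nat.infinite_setOfPred_prime_and_modEq hM hcop).mono ?_)
  rintro p ⟨hp, hpa⟩
  have hpD : p % D = 1 := by rw [← haD]; exact Nat.ModEq.of_mul_left _ hpa
  obtain ⟨k, hk⟩ := Nat.modEq_iff_dvd.1 hpa.symm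
  have hkey : ((p - 1 : ℕ) : ℤ) = (q : ℤ) * (t + q * D * k) := by
    rw [Nat.cast_sub hp.one_le]
    push_cast [hadef] at hk
    linear_combination hk
  have hdvd : q ∣ p - 1 := Int.natCast_dvd_natCast.1 (hkey ▸ dvd_mul_right _ _)
  refine ⟨⟨p, hp⟩, ⟨⟨fun h2 => ?_, hpD⟩, hdvd, ?_⟩, rfl⟩
  · have h2' : p = 2 := h2
    rw [h2', Nat.mod_eq_of_lt (lt_of_le_of_ne hD.two_le hD2.symm)] at hpD
    omega
  · show ((p - 1) / q).Coprime q
    obtain ⟨c, hc⟩ := hdvd
    rw [hc, Nat.mul_div_cancel_left _ (Nat.pos_of_ne_zero hq)]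
    have h3 : (c : ℤ) = t + q * D * k := by
      have := hkey
      rw [hc, Nat.cast_mul] at this
      exact mul_left_cancel₀ (Nat.cast_ne_zero.2 hq) this
    have h4 : c ≡ 1 [MOD q] := by
      refine Nat.ModEq.trans ?_ ht1
      rw [← Int.natCast_modEq_iff, Int.modEq_iff_dvd, h3]
      exact ⟨-(D * k), by ring⟩
    rw [Nat.coprime_iff_gcd_eq_one, h4.gcd_eq, Nat.gcd_one_left]

/-- A cyclic group retracts onto a subgroup of coprime cofactor. -/
theorem exists_retraction {G U : Type*} [CommGroup G] [Finite G] [IsCyclic G] [CommGroup U]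
    [Finite U] (j : U →* G) (hj : Function.Injective j) {m : ℕ}
    (hm : Nat.card G = Nat.card U * m) (hcop : m.Coprime (Nat.card U)) :
    ∃ r : G →* U, ∀ u, r (j u) = u := by
  obtain ⟨a, ha, ha'⟩ := Nat.chineseRemainder hcop.symm 1 0
  have hrange : ∀ x : G, x ^ a ∈ j.range := fun x => by
    have hle : j.range ≤ (powMonoidHom (Nat.card U) : G →* G).ker := by
      rintro _ ⟨u, rfl⟩
      rw [MonoidHom.mem_ker, powMonoidHom_apply, ← map_pow, pow_card_eq_one', map_one]
    have hcard : Nat.card j.range = Nat.card U :=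
      (Nat.card_congr (MonoidHom.ofInjective hj).toEquiv).symm
    have heq := Subgroup.eq_of_le_of_card_ge hle (le_of_eq (by
      rw [IsCyclic.card_powMonoidHom_ker, hcard, hm, Nat.gcd_mul_right_left]))
    rw [heq, MonoidHom.mem_ker, powMonoidHom_apply, ← pow_mul]
    obtain ⟨c, hc⟩ := Nat.modEq_zero_iff_dvd.1 ha'
    rw [hc, mul_comm m c, mul_assoc, mul_comm c, mul_comm m, ← hm, pow_mul, pow_card_eq_one',
        one_pow]
  refine ⟨(MonoidHom.ofInjective hj).symm.toMonoidHom.comp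
    ((powMonoidHom a).codRestrict j.range hrange), fun u => ?_⟩
  refine (MonoidHom.ofInjective hj).symm_apply_eq.2 (Subtype.ext ?_)
  show j u ^ a = j u
  rw [← map_pow, ← pow_mod_natCard, show a % Nat.card U = 1 % Nat.card U from ha, pow_mod_natCard,
    pow_one]

/-- A product of finite groups divided by a group that is a direct factor of one of them. -/
theorem exists_quotient_map {P : Type} {F : P → Type} [∀ p, CommGroup (F p)]
    [∀ p, TopologicalSpace (F p)] [∀ p, DiscreteTopology (F p)] {U : Type} [CommGroup U]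
    (ι : U →* ∀ p, F p) (p₀ : P) (R : F p₀ →* U) (hR : ∀ u, R (ι u p₀) = u)
    (S : ∀ p, Subgroup (F p)) (hS₀ : S p₀ = R.ker) (hS : ∀ p, p ≠ p₀ → S p = ⊤) :
    ∃ g : (∀ p, F p) →* ∀ p, S p,
      Continuous g ∧ Function.Surjective g ∧ g.ker = ι.range := by
  set g : (∀ p, F p) →* ∀ p, F p :=
    MonoidHom.id _ / ι.comp (R.comp (Pi.evalMonoidHom (fun p => F p) p₀))
  have hg : ∀ f p, g f p = f p / ι (R (f p₀)) p := fun f p => rfl
  have hgS : ∀ f p, g f p ∈ S p := fun f p => by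
    by_cases hp : p = p₀
    · subst hp
      rw [hS₀, MonoidHom.mem_ker, hg, map_div, hR, div_self']
    · rw [hS p hp]
      exact Subgroup.mem_top _
  refine ⟨MonoidHom.pi fun p => ((Pi.evalMonoidHom (fun p => F p) p).comp g).codRestrict (S p)
    fun f => hgS f p, continuous_pi fun p => ?_, fun x => ?_, ?_⟩
  · refine Continuous.subtype_mk ?_ _
    show Continuous fun f : ∀ p, F p => f p / ι (R (f p₀)) p
    have hc : Continuous fun y : F p₀ => ι (R y) p := continuous_of_discreteTopology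
    exact (continuous_apply p).div' (hc.comp (continuous_apply p₀))
  · refine ⟨fun p => (x p : F p), funext fun p => Subtype.ext ?_⟩
    show g (fun p => (x p : F p)) p = x p
    have h : (x p₀ : F p₀) ∈ R.ker := hS₀.le (x p₀).2
    rw [hg, MonoidHom.mem_ker.1 h, map_one, Pi.one_apply, div_one]
  · refine le_antisymm (fun f hf => ?_) ?_
    · refine ⟨R (f p₀), funext fun p => ?_⟩
      have h : g f p = 1 := congrArg Subtype.val (congrFun hf p)
      rw [hg, div_eq_one] at h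
      exact h.symm
    · rintro _ ⟨u, rfl⟩
      refine funext fun p => Subtype.ext ?_
      show g (ι u) p = 1
      rw [hg, hR, div_self']

/-- The quotient of a product by a subgroup of one factor. -/
theorem exists_prod_quotient_equiv {A T Z S U : Type} [CommGroup A] [TopologicalSpace A]
    [CompactSpace A] [CommGroup T] [TopologicalSpace T] [CommGroup Z] [TopologicalSpace Z]
    [T2Space Z] [CommGroup S] [TopologicalSpace S] [T2Space S] [CommGroup U] (d : U →* A)
    (ι : U →* T) (ψ : A ≃ₜ* T × Z) (hψ : ∀ u, ψ (d u) = (ι u, 1)) (g : T →* S)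
    (hgc : Continuous g) (hgs : Function.Surjective g) (hgk : g.ker = ι.range) :
    Nonempty ((A ⧸ d.range) ≃ₜ* Z × S) := by
  set Φ : A →* Z × S :=
    ((MonoidHom.snd T Z).prod (g.comp (MonoidHom.fst T Z))).comp ψ.toMulEquiv.toMonoidHom
  have hΦ : ∀ a, Φ a = ((ψ a).2, g (ψ a).1) := fun a => rfl
  have hsurj : Function.Surjective Φ := fun x => by
    obtain ⟨t, ht⟩ := hgs x.2
    exact ⟨ψ.symm (t, x.1), by rw [hΦ, ContinuousMulEquiv.apply_symm_apply, ht]⟩
  have hker : Φ.ker = d.range := by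
    refine le_antisymm (fun a ha => ?_) ?_
    · have h1 : (ψ a).2 = 1 ∧ g (ψ a).1 = 1 := ⟨congrArg Prod.fst ha, congrArg Prod.snd ha⟩
      obtain ⟨u, hu⟩ := hgk.le (MonoidHom.mem_ker.2 h1.2)
      exact ⟨u, ψ.injective (by rw [hψ, hu, ← h1.1])⟩
    · rintro _ ⟨u, rfl⟩
      rw [MonoidHom.mem_ker, hΦ, hψ,
        MonoidHom.mem_ker.1 (hgk.ge ⟨u, rfl⟩ : ι u ∈ g.ker)]
      rfl
  obtain ⟨Q, -⟩ := exists_quotient_equiv Φ hsurj
    ((continuous_snd.prodMk (hgc.comp continuous_fst)).comp ψ.continuous) hker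
  exact ⟨Q⟩

variable {K : Type} [Field K] [NumberField K]

/-- The finite group of the units of an imaginary quadratic field. -/
theorem finite_units_imaginary (hK : finrank ℚ K = 2) {D : ℕ} (hD : D ≠ 0) {s : 𝓞 K}
    (hs : s ^ 2 = -(D : 𝓞 K)) : IsTotallyComplex K ∧ Finite (𝓞 K)ˣ := by
  have hd0 : (-(D : ℤ)) < 0 := neg_lt_zero.2 (Int.natCast_pos.2 (Nat.pos_of_ne_zero hD))
  have hs' := FA.RedeiReichardt.coe_sqrt hs
  refine ⟨FA.ChowlaSelberg.isTotallyComplex_of_sq hd0 hs', finite_units_of_rank_eq_zero ?_⟩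
  rw [Units.rank, (FA.ChowlaSelberg.card_infinitePlace hK hd0 hs').2.2]

/-- **The structure.** -/
theorem exists_galAbel_equiv (hK : finrank ℚ K = 2) {D : ℕ} (hD : D.Prime) (hD4 : D % 4 = 3)
    {s : 𝓞 K} (hs : s ^ 2 = -(D : 𝓞 K)) (h1 : classNumber K = 1) :
    Nonempty ((maxAbelian K ≃ₐ[K] maxAbelian K) ≃ₜ*
      (∀ p : Nat.Primes, Multiplicative (ℤ_[(p : ℕ)] × ℤ_[(p : ℕ)])) ×
        ∀ n : ℕ+, Multiplicative (ZMod n)) := by
  obtain ⟨hTC, hUfin⟩ := finite_units_imaginary hK hD.ne_zero hs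
  haveI := hTC
  haveI := hUfin
  choose F hFfin hFtor e he using fun p : Nat.Primes =>
    exists_locU_split (K := K) (p := (p : ℕ)) hK
  haveI := hFfin
  have hι : ∀ (ε : (𝓞 K)ˣ) (p : Nat.Primes), unitsLoc K (p : ℕ) ε ∈ F p := fun ε p =>
    hFtor p _ ((unitsLoc K (p : ℕ)).isOfFinOrder (isOfFinOrder_of_finite ε))
  set ι : (𝓞 K)ˣ →* ∀ p, F p :=
    MonoidHom.pi fun p => (unitsLoc K (p : ℕ)).codRestrict (F p) fun ε => hι ε p
  -- the retraction onto the units
  set w := Nat.card (𝓞 K)ˣ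
  obtain ⟨p₀, ⟨h02, h0D⟩, hwd, hw⟩ :=
    (infinite_good_primes hD (by omega) (q := w) Nat.card_pos.ne').nonempty
  have hgood : ∀ p : Nat.Primes, (p : ℕ) ≠ 2 → (p : ℕ) % D = 1 →
      ∃ (φ : F p →* (ZMod (p : ℕ))ˣ) (t : (ZMod (p : ℕ))ˣ →* F p), (∀ c, φ (t c) = c) ∧
        ∀ u : (𝓞 K)ˣ, ∀ f : F p, (f : LocU K (p : ℕ)) = unitsLoc K (p : ℕ) u → φ f = 1 → u = 1 :=
    fun p h2 hpD => exists_torsion_factor hK hD hD4 hs h2 hpD (hFtor p) (e p) (he p)
  obtain ⟨φ₀, t₀, ht₀, hinj₀⟩ := hgood p₀ h02 h0D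
  set j : (𝓞 K)ˣ →* (ZMod (p₀ : ℕ))ˣ := φ₀.comp ((Pi.evalMonoidHom (fun p => F p) p₀).comp ι)
  have hj : Function.Injective j :=
    (injective_iff_map_eq_one j).2 fun u hu => hinj₀ u _ rfl hu
  obtain ⟨r, hr⟩ := exists_retraction j hj (m := ((p₀ : ℕ) - 1) / w) (by
    rw [Nat.card_eq_fintype_card (α := (ZMod (p₀ : ℕ))ˣ), ZMod.card_units, Nat.mul_div_cancel'
        hwd]) hw
  set R : F p₀ →* (𝓞 K)ˣ := r.comp φ₀
  have hR : ∀ u, R (ι u p₀) = u := hr
  set S : ∀ p, Subgroup (F p) := Function.update (fun p => ⊤) p₀ R.ker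
  obtain ⟨g, hgc, hgs, hgk⟩ := exists_quotient_map (F := fun p => F p) ι p₀ R hR S
    (Function.update_self _ _ _) (fun p hp => Function.update_of_ne hp _ _)
  -- the quotient
  obtain ⟨rg, hrg⟩ := exists_regroup (K := K)
  set E : ((∀ p, F p) × ∀ p : Nat.Primes, Multiplicative (ℤ_[(p : ℕ)] × ℤ_[(p : ℕ)])) ≃ₜ*
      LocPi K := (piProd (fun p => F p)
        (fun p : Nat.Primes => Multiplicative (ℤ_[(p : ℕ)] × ℤ_[(p : ℕ)]))).symm.trans (piCongr e)
  have hE : ∀ ε, E (ι ε, 1) = rg (diagUnits K ε) := fun ε => by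
    rw [hrg]
    exact funext fun p => he p (ι ε p)
  set ψ := rg.trans E.symm
  have hψ : ∀ ε, ψ (diagUnits K ε) = (ι ε, 1) := fun ε => by
    show E.symm (rg (diagUnits K ε)) = _
    rw [← hE, ContinuousMulEquiv.symm_apply_apply]
  obtain ⟨Q⟩ := exists_prod_quotient_equiv (diagUnits K) ι ψ hψ g hgc hgs hgk
  -- the finite factors
  set m : Nat.Primes → ℕ := fun p =>
    if p ≠ p₀ ∧ (p : ℕ) ≠ 2 ∧ (p : ℕ) % D = 1 then (p : ℕ) - 1 else 1
  obtain ⟨I, _, c, hc, ⟨eS⟩⟩ := exists_isBig (fun p => S p) m (fun p => by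
      simp only [m]
      have := p.2.two_le
      split_ifs <;> omega) (fun p => by
      by_cases hp : p ≠ p₀ ∧ (p : ℕ) ≠ 2 ∧ (p : ℕ) % D = 1
      · obtain ⟨φ, t, ht, -⟩ := hgood p hp.2.1 hp.2.2
        obtain ⟨eF⟩ := exists_prod_equiv φ t ht
        refine ⟨φ.ker, inferInstance, inferInstance, ⟨?_⟩⟩
        rw [show m p = (p : ℕ) - 1 from if_pos hp]
        have hS : S p = ⊤ := Function.update_of_ne hp.1 _ _
        exact ((MulEquiv.subgroupCongr hS).trans Subgroup.topEquiv).trans (eF.trans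
          (MulEquiv.prodCongr (mulEquivOfCyclicCardEq (by
            rw [Nat.card_eq_fintype_card, ZMod.card_units, Nat.card_congr Multiplicative.toAdd,
              Nat.card_zmod])) (MulEquiv.refl _)))
      · refine ⟨S p, inferInstance, inferInstance, ⟨?_⟩⟩
        rw [show m p = 1 from if_neg hp]
        exact (MulEquiv.uniqueProd (N := Multiplicative (ZMod 1)) (M := S p)).symm)
    fun q hq => by
      refine (((infinite_good_primes hD (by omega) (q := q) hq.ne_zero).sdiff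
        (Set.finite_singleton p₀))).mono ?_
      rintro p ⟨⟨hp1, hp2⟩, hp3⟩
      simp only [Set.mem_ofPred_eq, m, if_pos (show p ≠ p₀ ∧ _ from ⟨hp3, hp1⟩)]
      exact hp2
  obtain ⟨I', _, c', hc', ⟨eAll⟩⟩ := exists_isBig_all
  obtain ⟨eC⟩ := nonempty_cyc_equiv hc hc'
  obtain ⟨eA, -⟩ := exists_artin_equiv (K := K) h1
  exact ⟨eA.symm.trans (Q.trans (prodCongrₜ (ContinuousMulEquiv.refl _)
    (eS.trans (eC.trans eAll.symm))))⟩

end FA.AbelianQuad

end
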