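import Fermat.Agent.AbelianGaloisQuad.Product
import Mathlib.NumberTheory.Padics.RingHoms
import Mathlib.NumberTheory.Padics.ProperSpace
import Mathlib.Topology.Algebra.OpenSubgroup
import Mathlib.LinearAlgebra.FreeModule.PID
import Mathlib.LinearAlgebra.Dimension.StrongRankCondition

/-!
# Compact abelian groups with an open subgroup `ℤ_p × ℤ_p`

Powers with `p`-adic exponents are defined along a filtration. With two elements generating each
layer they give `ℤ_p × ℤ_p`; a compact group containing this as an open subgroup is a finite group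
times `ℤ_p × ℤ_p`.
-/

set_option autoImplicit false
set_option linter.unusedSectionVars false
set_option linter.style.haveILetI false

noncomputable section

open scoped Classical

namespace FA.AbelianQuad

variable {p : ℕ} [Fact p.Prime] {G : Type*} [CommGroup G] [TopologicalSpace G]
  [IsTopologicalGroup G] [CompactSpace G] [T2Space G] {U : ℕ → Subgroup G}

/-- Powers with congruent exponents. -/
theorem zpow_div_zpow_mem {g : G} {H : Subgroup G} {N : ℕ} (hg : g ^ N ∈ H) {a b : ℤ}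
    (h : (N : ℤ) ∣ a - b) : g ^ a / g ^ b ∈ H := by
  obtain ⟨c, hc⟩ := h
  rw [div_eq_mul_inv, ← zpow_sub, hc, zpow_mul, zpow_natCast]
  exact zpow_mem hg c

/-- The value of a residue as an integer. -/
def resVal (n : ℕ) (z : ℤ_[p]) : ℤ := ((PadicInt.toZModPow n z).val : ℤ)

theorem resVal_cast (n : ℕ) (z : ℤ_[p]) :
    ((resVal n z : ℤ) : ZMod (p ^ n)) = PadicInt.toZModPow n z := by
  haveI : NeZero (p ^ n) := ⟨pow_ne_zero _ (Fact.out : p.Prime).ne_zero⟩
  rw [resVal, Int.cast_natCast, ZMod.natCast_zmod_val]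

theorem resVal_add (n : ℕ) (x y : ℤ_[p]) :
    ((p ^ n : ℕ) : ℤ) ∣ resVal n (x + y) - (resVal n x + resVal n y) := by
  rw [← ZMod.intCast_zmod_eq_zero_iff_dvd, Int.cast_sub, Int.cast_add, resVal_cast, resVal_cast,
    resVal_cast, map_add, sub_self]

theorem resVal_succ (n : ℕ) (x : ℤ_[p]) :
    ((p ^ n : ℕ) : ℤ) ∣ resVal (n + 1) x - resVal n x := by
  rw [← ZMod.intCast_zmod_eq_zero_iff_dvd, Int.cast_sub, resVal_cast,
    ← map_intCast (ZMod.castHom (pow_dvd_pow p n.le_succ) (ZMod (p ^ n))) (resVal (n + 1) x),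
    resVal_cast]
  refine sub_eq_zero.2 ?_
  exact RingHom.congr_fun (PadicInt.zmod_cast_comp_toZModPow n (n + 1) n.le_succ) x

variable (hanti : Antitone U) (hopen : ∀ n, IsOpen (U n : Set G))
  (hsep : ∀ x : G, (∀ n, x ∈ U n) → x = 1)
include hanti hopen hsep

/-- **Powers with exponents in `ℤ_p`.** -/
theorem exists_zpLift {g : G} (j : ℕ) (hg : ∀ n, g ^ (p ^ (n + j)) ∈ U n) :
    ∃ s : Multiplicative ℤ_[p] →* G, Continuous s ∧
      ∀ z n, s (Multiplicative.ofAdd z) / g ^ resVal (n + j) z ∈ U n := by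
  have hex : ∀ z : ℤ_[p], ∃ x : G, ∀ n, x / g ^ resVal (n + j) z ∈ U n := fun z => by
    obtain ⟨x, hx⟩ := IsCompact.nonempty_iInter_of_sequence_nonempty_isCompact_isClosed
      (fun n => {x : G | x / g ^ resVal (n + j) z ∈ U n}) (fun n x hx => by
        have h2 : g ^ resVal (n + 1 + j) z / g ^ resVal (n + j) z ∈ U n :=
          zpow_div_zpow_mem (hg n) (by
            rw [show n + 1 + j = n + j + 1 by omega]
            exact resVal_succ (n + j) z)
        have h3 := mul_mem (hanti n.le_succ hx) h2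
        rwa [div_mul_div_cancel] at h3)
      (fun n => ⟨g ^ resVal (n + j) z, by
        show g ^ resVal (n + j) z / g ^ resVal (n + j) z ∈ U n
        rw [div_self']
        exact one_mem _⟩)
      (((U 0).isClosed_of_isOpen (hopen 0)).preimage
        (continuous_id.div' continuous_const)).isCompact
      fun n => ((U n).isClosed_of_isOpen (hopen n)).preimage (continuous_id.div' continuous_const)
    exact ⟨x, fun n => Set.mem_iInter.1 hx n⟩
  choose f hf using hex
  have huniq : ∀ (z : ℤ_[p]) (x : G), (∀ n, x / g ^ resVal (n + j) z ∈ U n) → x = f z :=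
    fun z x hx => div_eq_one.1 (hsep _ fun n => by
      have h := div_mem (hx n) (hf z n)
      rwa [div_div_div_cancel_right] at h)
  have hmul : ∀ z w, f (z + w) = f z * f w := fun z w => (huniq _ _ fun n => by
    have h1 := mul_mem (hf z n) (hf w n)
    rw [div_mul_div_comm, ← zpow_add] at h1
    have h2 : g ^ (resVal (n + j) z + resVal (n + j) w) / g ^ resVal (n + j) (z + w) ∈ U n :=
      zpow_div_zpow_mem (hg n) (dvd_sub_comm.1 (resVal_add _ _ _))
    have h3 := mul_mem h1 h2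
    rwa [div_mul_div_cancel] at h3).symm
  let s : Multiplicative ℤ_[p] →* G := MonoidHom.mk' (fun z => f z.toAdd) fun z w => hmul _ _
  refine ⟨s, continuous_of_continuousAt_one s ?_, fun z n => hf z n⟩
  rw [ContinuousAt, map_one, Filter.tendsto_def]
  intro t ht
  obtain ⟨n, hn⟩ : ∃ n, (U n : Set G) ⊆ t := by
    obtain ⟨O, hOt, hO, h1⟩ := mem_nhds_iff.1 ht
    by_contra! hne
    obtain ⟨x, hx⟩ := IsCompact.nonempty_iInter_of_sequence_nonempty_isCompact_isClosed
      (fun n => (U n : Set G) \ O) (fun n => Set.sdiff_subset_sdiff_left (hanti n.le_succ))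
      (fun n => by
        obtain ⟨x, hx, hxt⟩ := Set.not_subset.1 (hne n)
        exact ⟨x, hx, fun h => hxt (hOt h)⟩)
      ((((U 0).isClosed_of_isOpen (hopen 0)).sdiff hO).isCompact)
      fun n => (((U n).isClosed_of_isOpen (hopen n)).sdiff hO)
    rw [Set.mem_iInter] at hx
    exact (hx 0).2 (hsep x (fun n => (hx n).1) ▸ h1)
  refine Filter.mem_of_superset
    (((Metric.isOpen_ball (x := (0 : ℤ_[p])) (ε := (p : ℝ) ^ (-(n + j : ℕ) : ℤ))).preimage
      continuous_toAdd).mem_nhds (show Multiplicative.toAdd (1 : Multiplicative ℤ_[p]) ∈ _ from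
        Metric.mem_ball_self (zpow_pos (by exact_mod_cast (Fact.out : p.Prime).pos) _)))
    fun z hz => hn ?_
  have hz' : ‖z.toAdd‖ < (p : ℝ) ^ (-(n + j : ℕ) : ℤ) := by simpa using hz
  have h0 : PadicInt.toZModPow (n + j) z.toAdd = 0 := by
    rw [← RingHom.mem_ker, PadicInt.ker_toZModPow, ← PadicInt.norm_le_pow_iff_mem_span_pow]
    exact hz'.le
  have h := hf z.toAdd n
  rw [show resVal (n + j) z.toAdd = 0 by rw [resVal, h0, ZMod.val_zero, Nat.cast_zero], zpow_zero,
    div_one] at h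
  exact h

/-- Two exponents. -/
theorem exists_zpLift_two {g₁ g₂ : G} (j : ℕ) (h₁ : ∀ n, g₁ ^ (p ^ (n + j)) ∈ U n)
    (h₂ : ∀ n, g₂ ^ (p ^ (n + j)) ∈ U n) :
    ∃ s : Multiplicative (ℤ_[p] × ℤ_[p]) →* G, Continuous s ∧
      ∀ z n, s (Multiplicative.ofAdd z) /
        (g₁ ^ resVal (n + j) z.1 * g₂ ^ resVal (n + j) z.2) ∈ U n := by
  obtain ⟨s₁, c₁, e₁⟩ := exists_zpLift hanti hopen hsep j h₁
  obtain ⟨s₂, c₂, e₂⟩ := exists_zpLift hanti hopen hsep j h₂
  refine ⟨MonoidHom.mk' (fun z => s₁ (Multiplicative.ofAdd z.toAdd.1) *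
      s₂ (Multiplicative.ofAdd z.toAdd.2)) fun z w => ?_, ?_, fun z n => ?_⟩
  · rw [toAdd_mul, Prod.fst_add, Prod.snd_add, ofAdd_add, ofAdd_add, map_mul, map_mul]
    exact mul_mul_mul_comm _ _ _ _
  · exact (c₁.comp (continuous_ofAdd.comp (continuous_fst.comp continuous_toAdd))).mul
      (c₂.comp (continuous_ofAdd.comp (continuous_snd.comp continuous_toAdd)))
  · show s₁ (Multiplicative.ofAdd z.1) * s₂ (Multiplicative.ofAdd z.2) / _ ∈ U n
    rw [mul_div_mul_comm]
    exact mul_mem (e₁ _ n) (e₂ _ n)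

/-- **A compact group with an open `ℤ_p × ℤ_p`.** -/
theorem exists_split {g₁ g₂ : G} (h₁ : ∀ n, g₁ ^ (p ^ n) ∈ U n) (h₂ : ∀ n, g₂ ^ (p ^ n) ∈ U n)
    (hfaith : ∀ n (a b : ℤ), g₁ ^ a * g₂ ^ b ∈ U n → ((p ^ n : ℕ) : ℤ) ∣ a ∧ ((p ^ n : ℕ) : ℤ) ∣ b)
    (hspan : ∀ x ∈ U 0, ∀ n, ∃ a b : ℤ, x / (g₁ ^ a * g₂ ^ b) ∈ U n) :
    ∃ F : Subgroup G, Finite F ∧ (∀ x : G, IsOfFinOrder x → x ∈ F) ∧
      ∃ e : (F × Multiplicative (ℤ_[p] × ℤ_[p])) ≃ₜ* G, ∀ f : F, e (f, 1) = (f : G) := by
  obtain ⟨S, hSc, hS⟩ := exists_zpLift_two (p := p) hanti hopen hsep (g₁ := g₁) (g₂ := g₂) 0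
    (by simpa using h₁) (by simpa using h₂)
  simp only [add_zero] at hS
  have hV : ∀ z, S z ∈ U 0 := fun z => by
    have h := mul_mem (hS z.toAdd 0) (mul_mem
      (zpow_mem (show g₁ ∈ U 0 by simpa using h₁ 0) (resVal 0 z.toAdd.1))
      (zpow_mem (show g₂ ∈ U 0 by simpa using h₂ 0) (resVal 0 z.toAdd.2)))
    rwa [div_mul_cancel] at h
  set S' := S.codRestrict (U 0) hV
  haveI : CompactSpace (Multiplicative (ℤ_[p] × ℤ_[p])) :=
    inferInstanceAs (CompactSpace (ℤ_[p] × ℤ_[p]))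
  have hS'c : Continuous S' := hSc.subtype_mk _
  have hb : Function.Bijective S' := by
    refine ⟨(injective_iff_map_eq_one S').2 fun z hz => ?_, fun x => ?_⟩
    · have hz1 : S z = 1 := congrArg Subtype.val hz
      have hall : ∀ n, PadicInt.toZModPow n z.toAdd.1 = 0 ∧ PadicInt.toZModPow n z.toAdd.2 = 0 :=
          fun n => by
        have h := hS z.toAdd n
        rw [ofAdd_toAdd, hz1, one_div, inv_mem_iff] at h
        obtain ⟨ha, hb⟩ := hfaith n _ _ h
        rw [← ZMod.intCast_zmod_eq_zero_iff_dvd, resVal_cast] at ha hb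
        exact ⟨ha, hb⟩
      have h1 : z.toAdd.1 = 0 := PadicInt.ext_of_toZModPow.1 fun n => by rw [(hall n).1, map_zero]
      have h2 : z.toAdd.2 = 0 := PadicInt.ext_of_toZModPow.1 fun n => by rw [(hall n).2, map_zero]
      exact Multiplicative.toAdd.injective (Prod.ext h1 h2)
    · obtain ⟨z, hz⟩ := IsCompact.nonempty_iInter_of_sequence_nonempty_isCompact_isClosed
        (fun n => {z | (x : G) / S z ∈ U n}) (fun n z hz => hanti n.le_succ hz)
        (fun n => by
          obtain ⟨a, b, hab⟩ := hspan x x.2 n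
          refine ⟨Multiplicative.ofAdd ((a : ℤ_[p]), (b : ℤ_[p])), ?_⟩
          have h := hS ((a : ℤ_[p]), (b : ℤ_[p])) n
          have ha : g₁ ^ resVal n (a : ℤ_[p]) / g₁ ^ a ∈ U n := zpow_div_zpow_mem (h₁ n) (by
            rw [← ZMod.intCast_zmod_eq_zero_iff_dvd, Int.cast_sub, resVal_cast, map_intCast,
                sub_self])
          have hb : g₂ ^ resVal n (b : ℤ_[p]) / g₂ ^ b ∈ U n := zpow_div_zpow_mem (h₂ n) (by
            rw [← ZMod.intCast_zmod_eq_zero_iff_dvd, Int.cast_sub, resVal_cast, map_intCast,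
                sub_self])
          have h3 := mul_mem h (mul_mem ha hb)
          rw [div_mul_div_comm, div_mul_div_cancel] at h3
          have h4 := div_mem hab h3
          rwa [div_div_div_cancel_right] at h4)
        ((((U 0).isClosed_of_isOpen (hopen 0)).preimage
          (continuous_const.div' hSc)).isCompact)
        fun n => ((U n).isClosed_of_isOpen (hopen n)).preimage (continuous_const.div' hSc)
      rw [Set.mem_iInter] at hz
      exact ⟨z, Subtype.ext (div_eq_one.1 (hsep _ hz)).symm⟩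
  set Φ := ofBijective S' hb hS'c
  haveI : Finite (G ⧸ U 0) := Subgroup.quotient_finite_of_isOpen (U 0) (hopen 0)
  haveI : (U 0).FiniteIndex := Subgroup.finiteIndex_of_finite_quotient
  set m := (U 0).index
  have hm0 : m ≠ 0 := Subgroup.FiniteIndex.index_ne_zero
  let pm : G →* U 0 := MonoidHom.mk' (fun x => ⟨x ^ m, Subgroup.pow_index_mem (U 0) x⟩)
    fun x y => Subtype.ext (mul_pow x y m)
  set π : G →* Multiplicative (ℤ_[p] × ℤ_[p]) := Φ.symm.toMulEquiv.toMonoidHom.comp pm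
  have hπc : Continuous π := Φ.symm.continuous.comp ((continuous_pow m).subtype_mk _)
  -- the image is a free module of rank two
  let W : Submodule ℤ_[p] (ℤ_[p] × ℤ_[p]) :=
    { carrier := {w | Multiplicative.ofAdd w ∈ π.range}
      zero_mem' := one_mem π.range
      add_mem' := fun {a b} ha hb => by
        show Multiplicative.ofAdd (a + b) ∈ π.range
        rw [ofAdd_add]
        exact mul_mem ha hb
      smul_mem' := fun c w hw => by
        have hcl : IsClosed {w : ℤ_[p] × ℤ_[p] | Multiplicative.ofAdd w ∈ π.range} :=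
          IsClosed.preimage continuous_ofAdd (isCompact_range hπc).isClosed
        refine PadicInt.denseRange_natCast.induction_on c
          (hcl.preimage (continuous_id.smul continuous_const)) fun k => ?_
        show Multiplicative.ofAdd ((k : ℤ_[p]) • w) ∈ π.range
        rw [Nat.cast_smul_eq_nsmul, ofAdd_nsmul]
        exact pow_mem hw k }
  have hWm : ∀ w, (m : ℤ_[p]) • w ∈ W := fun w => by
    refine ⟨(Φ (Multiplicative.ofAdd w) : G), ?_⟩
    show Φ.symm (⟨_, _⟩ : U 0) = _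
    rw [Nat.cast_smul_eq_nsmul, ofAdd_nsmul, show (⟨(Φ (Multiplicative.ofAdd w) : G) ^ m,
      Subgroup.pow_index_mem (U 0) _⟩ : U 0) = Φ (Multiplicative.ofAdd w) ^ m from rfl, map_pow,
      ContinuousMulEquiv.symm_apply_apply]
  have hrank : Module.finrank ℤ_[p] W = 2 := by
    refine le_antisymm ((Submodule.finrank_le W).trans (by simp)) ?_
    have hl : Function.Injective ((LinearMap.lsmul ℤ_[p] (ℤ_[p] × ℤ_[p]) (m : ℤ_[p])).codRestrict W
        hWm) := fun u v h => smul_right_injective _ (Nat.cast_ne_zero.2 hm0)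
          (congrArg Subtype.val h)
    simpa using LinearMap.finrank_le_finrank_of_injective hl
  set bW : Module.Basis (Fin 2) ℤ_[p] W := Module.finBasisOfFinrankEq ℤ_[p] W hrank
  obtain ⟨a₁, ha₁⟩ := (bW 0).2
  obtain ⟨a₂, ha₂⟩ := (bW 1).2
  obtain ⟨j, m', hm', hm⟩ : ∃ j m', ¬ p ∣ m' ∧ m = p ^ j * m' :=
    Nat.exists_eq_pow_mul_and_not_dvd hm0 p (Fact.out : p.Prime).ne_one
  have hp_pow : ∀ (x : G) n, (x ^ m') ^ (p ^ (n + j)) ∈ U n := fun x n => by
    have hx : x ^ m ∈ U 0 := Subgroup.pow_index_mem (U 0) x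
    obtain ⟨a, b, hab⟩ := hspan _ hx n
    rw [← pow_mul, pow_add, show m' * (p ^ n * p ^ j) = m * p ^ n by rw [hm]; ring, pow_mul,
      ← div_mul_cancel (x ^ m) (g₁ ^ a * g₂ ^ b), mul_pow, mul_pow, ← zpow_natCast (g₁ ^ a),
      ← zpow_natCast (g₂ ^ b), ← zpow_mul, ← zpow_mul, mul_comm a, mul_comm b, zpow_mul, zpow_mul,
      zpow_natCast, zpow_natCast]
    exact mul_mem (pow_mem hab _) (mul_mem (zpow_mem (h₁ n) a) (zpow_mem (h₂ n) b))
  obtain ⟨T, hTc, hT⟩ := exists_zpLift_two (p := p) hanti hopen hsep (g₁ := a₁ ^ m')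
    (g₂ := a₂ ^ m') j (hp_pow a₁) (hp_pow a₂)
  -- the lift followed by `π`
  have hπT : ∀ z : ℤ_[p] × ℤ_[p], (π (T (Multiplicative.ofAdd z))).toAdd =
      (m' : ℤ_[p]) • (z.1 • (bW 0 : ℤ_[p] × ℤ_[p]) + z.2 • (bW 1 : ℤ_[p] × ℤ_[p])) := by
    have hcl : IsClosed {z : ℤ_[p] × ℤ_[p] | (π (T (Multiplicative.ofAdd z))).toAdd =
        (m' : ℤ_[p]) • (z.1 • (bW 0 : ℤ_[p] × ℤ_[p]) + z.2 • (bW 1 : ℤ_[p] × ℤ_[p]))} :=
      isClosed_eq (continuous_toAdd.comp (hπc.comp (hTc.comp continuous_ofAdd)))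
        (by fun_prop)
    intro z
    refine (PadicInt.denseRange_natCast.prodMap PadicInt.denseRange_natCast).induction_on z hcl
      fun kl => ?_
    have hTk : T (Multiplicative.ofAdd ((kl.1 : ℤ_[p]), (kl.2 : ℤ_[p]))) =
        (a₁ ^ m') ^ kl.1 * (a₂ ^ m') ^ kl.2 := div_eq_one.1 (hsep _ fun n => by
      have h := hT ((kl.1 : ℤ_[p]), (kl.2 : ℤ_[p])) n
      have e : ∀ (x : G) (k : ℕ), (x ^ m') ^ resVal (n + j) (k : ℤ_[p]) / (x ^ m') ^ k ∈ U n :=
        fun x k => by
          rw [← zpow_natCast (x ^ m') k]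
          exact zpow_div_zpow_mem (hp_pow x n) (by
            rw [← ZMod.intCast_zmod_eq_zero_iff_dvd, Int.cast_sub, resVal_cast, map_natCast,
              Int.cast_natCast, sub_self])
      have h2 := mul_mem h (mul_mem (e a₁ kl.1) (e a₂ kl.2))
      rwa [div_mul_div_comm, div_mul_div_cancel] at h2)
    show (π (T (Multiplicative.ofAdd ((kl.1 : ℤ_[p]), (kl.2 : ℤ_[p]))))).toAdd = _
    rw [hTk, map_mul, map_pow, map_pow, map_pow, map_pow, ha₁, ha₂]
    simp only [toAdd_mul, toAdd_pow, toAdd_ofAdd, Prod.map_fst, Prod.map_snd, smul_add,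
      ← Nat.cast_smul_eq_nsmul ℤ_[p]]
    rw [smul_comm (m' : ℤ_[p]) (kl.1 : ℤ_[p]), smul_comm (m' : ℤ_[p]) (kl.2 : ℤ_[p])]
  have hm'u : IsUnit (m' : ℤ_[p]) := by
    rw [PadicInt.isUnit_iff, PadicInt.norm_natCast_eq_one_iff]
    exact ((Fact.out : p.Prime).coprime_iff_not_dvd.2 hm')
  have hcomb : ∀ z : ℤ_[p] × ℤ_[p], (π (T (Multiplicative.ofAdd z))).toAdd =
      ((m' : ℤ_[p]) • bW.equivFun.symm ![z.1, z.2] : W) := fun z => by
    rw [hπT, Module.Basis.equivFun_symm_apply, Fin.sum_univ_two, Submodule.coe_smul,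
      Submodule.coe_add, Submodule.coe_smul, Submodule.coe_smul]
    rfl
  set F := π.ker
  have hFfin : Finite F := by
    refine Finite.of_injective (fun f : F => (QuotientGroup.mk (f : G) : G ⧸ U 0)) fun f f' h => ?_
    have h1 : (f : G)⁻¹ * (f' : G) ∈ U 0 := QuotientGroup.eq.1 h
    have h2 : π ((f : G)⁻¹ * (f' : G)) = 1 := mul_mem (inv_mem f.2) f'.2
    obtain ⟨z, hz⟩ := Φ.surjective ⟨_, h1⟩
    have h3 : z ^ m = 1 := by
      rw [← ContinuousMulEquiv.symm_apply_apply Φ (z ^ m), map_pow, hz]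
      exact h2
    have h4 : z = 1 := by
      refine Multiplicative.toAdd.injective ?_
      have h5 := congrArg Multiplicative.toAdd h3
      rw [toAdd_pow, toAdd_one, ← Nat.cast_smul_eq_nsmul ℤ_[p]] at h5
      rw [toAdd_one]
      exact (smul_eq_zero.1 h5).resolve_left (Nat.cast_ne_zero.2 hm0)
    rw [h4, map_one] at hz
    exact Subtype.ext (inv_mul_eq_one.1 (congrArg Subtype.val hz).symm)
  have htors : ∀ x : G, IsOfFinOrder x → x ∈ F := fun x hx => by
    obtain ⟨k, hk, hxk⟩ := isOfFinOrder_iff_pow_eq_one.1 hx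
    refine MonoidHom.mem_ker.2 (Multiplicative.toAdd.injective ?_)
    have h5 := congrArg Multiplicative.toAdd (congrArg π hxk)
    rw [map_pow, map_one, toAdd_pow, toAdd_one, ← Nat.cast_smul_eq_nsmul ℤ_[p]] at h5
    rw [toAdd_one]
    exact (smul_eq_zero.1 h5).resolve_left (Nat.cast_ne_zero.2 hk.ne')
  haveI := hFfin
  let J : F × Multiplicative (ℤ_[p] × ℤ_[p]) →* G := F.subtype.coprod T
  refine ⟨F, hFfin, htors, ofBijective J ⟨(injective_iff_map_eq_one J).2 fun y hy => ?_,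
    fun x => ?_⟩
    ((continuous_subtype_val.comp continuous_fst).mul (hTc.comp continuous_snd)), fun f => ?_⟩
  · have h1 : π (T y.2) = 1 := by
      have h := congrArg π hy
      rwa [show J y = (y.1 : G) * T y.2 from rfl, map_mul, MonoidHom.mem_ker.1 y.1.2, one_mul,
        map_one] at h
    have h2 := hcomb y.2.toAdd
    rw [ofAdd_toAdd, h1, toAdd_one] at h2
    have h3 := hm'u.smul_eq_zero.1 (Subtype.ext h2.symm : (m' : ℤ_[p]) •
      bW.equivFun.symm ![y.2.toAdd.1, y.2.toAdd.2] = (0 : W))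
    rw [map_eq_zero_iff _ bW.equivFun.symm.injective] at h3
    have hy2 : y.2 = 1 :=
      Multiplicative.toAdd.injective (Prod.ext (congrFun h3 0) (congrFun h3 1))
    refine Prod.ext (Subtype.ext ?_) hy2
    have h := hy
    rwa [show J y = (y.1 : G) * T y.2 from rfl, hy2, map_one, mul_one] at h
  · have hW : (π x).toAdd ∈ W := ⟨x, rfl⟩
    set c := bW.equivFun (((hm'u.unit⁻¹ : ℤ_[p]ˣ) : ℤ_[p]) • ⟨_, hW⟩ : W)
    refine ⟨(⟨x / T (Multiplicative.ofAdd (c 0, c 1)), MonoidHom.mem_ker.2 ?_⟩,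
      Multiplicative.ofAdd (c 0, c 1)), div_mul_cancel _ _⟩
    rw [map_div, div_eq_one]
    refine Multiplicative.toAdd.injective ?_
    rw [hcomb, show ![c 0, c 1] = c from funext fun i => by fin_cases i <;> rfl,
      LinearEquiv.symm_apply_apply, smul_smul, hm'u.mul_val_inv, one_smul]
  · show (f : G) * T 1 = f
    rw [map_one, mul_one]

end FA.AbelianQuad

end
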