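import Mathlib.GroupTheory.FiniteAbelian.Basic
import Mathlib.Data.ZMod.QuotientRing
import Mathlib.Topology.Algebra.ContinuousMonoidHom
import Mathlib.Topology.Algebra.Group.Quotient
import Mathlib.Topology.Homeomorph.Lemmas
import Mathlib.Topology.Instances.ZMod
import Mathlib.Logic.Denumerable

/-!
# Products of cyclic groups of prime power order

A countable product of such groups depends only on how often each order occurs. If every prime power
occurs infinitely often it is the product of all `ZMod n`.
-/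

set_option autoImplicit false
set_option linter.unusedSectionVars false
set_option linter.style.haveILetI false

noncomputable section

open scoped Classical

namespace FA.AbelianQuad

/-! ### Isomorphisms of topological groups -/

/-- A continuous bijective homomorphism from a compact group to a Hausdorff one. -/
def ofBijective {G H : Type*} [Group G] [TopologicalSpace G] [CompactSpace G] [Group H]
    [TopologicalSpace H] [T2Space H] (f : G →* H) (hb : Function.Bijective f)
    (hc : Continuous f) : G ≃ₜ* H :=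
  { MulEquiv.ofBijective f hb with
    continuous_toFun := hc
    continuous_invFun :=
      Continuous.continuous_symm_of_equiv_compact_to_t2
        (f := (MulEquiv.ofBijective f hb).toEquiv) hc }

@[simp] theorem ofBijective_apply {G H : Type*} [Group G] [TopologicalSpace G] [CompactSpace G]
    [Group H] [TopologicalSpace H] [T2Space H] (f : G →* H) (hb : Function.Bijective f)
    (hc : Continuous f) (x : G) : ofBijective f hb hc x = f x := rfl

/-- The quotient by the kernel. -/
theorem exists_quotient_equiv {G H : Type*} [CommGroup G] [TopologicalSpace G] [CompactSpace G]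
    [Group H] [TopologicalSpace H] [T2Space H] (f : G →* H) (hs : Function.Surjective f)
    (hc : Continuous f) {N : Subgroup G} (hN : f.ker = N) :
    ∃ e : (G ⧸ N) ≃ₜ* H, ∀ x : G, e (QuotientGroup.mk x) = f x := by
  set g := QuotientGroup.lift N f hN.ge
  refine ⟨ofBijective g ⟨(injective_iff_map_eq_one g).2 fun q hq => ?_, fun y => ?_⟩
    ((QuotientGroup.isQuotientMap_mk N).continuous_iff.2 hc), fun x => rfl⟩
  · obtain ⟨x, rfl⟩ := QuotientGroup.mk_surjective q
    exact (QuotientGroup.eq_one_iff x).2 (hN ▸ hq)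
  · obtain ⟨x, rfl⟩ := hs y
    exact ⟨x, rfl⟩

section pi

variable {I J : Type*}

/-- Products isomorphic factor by factor. -/
def piCongr {G H : I → Type*} [∀ i, Group (G i)] [∀ i, TopologicalSpace (G i)] [∀ i, Group (H i)]
    [∀ i, TopologicalSpace (H i)] (e : ∀ i, G i ≃ₜ* H i) : (∀ i, G i) ≃ₜ* ∀ i, H i :=
  { MulEquiv.piCongrRight fun i => (e i).toMulEquiv with
    continuous_toFun := continuous_pi fun i => (e i).continuous.comp (continuous_apply i)
    continuous_invFun := continuous_pi fun i => (e i).symm.continuous.comp (continuous_apply i) }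

/-- Reindexing. -/
def piReindex (e : I ≃ J) (G : J → Type*) [∀ j, Group (G j)] [∀ j, TopologicalSpace (G j)] :
    (∀ i, G (e i)) ≃ₜ* ∀ j, G j :=
  { Equiv.piCongrLeft G e with
    map_mul' := fun x y => funext fun j => by
      obtain ⟨i, rfl⟩ := e.surjective j
      simp [Equiv.piCongrLeft_apply_apply]
    continuous_toFun := (Homeomorph.piCongrLeft (Y := G) e).continuous
    continuous_invFun := (Homeomorph.piCongrLeft (Y := G) e).symm.continuous }

/-- A product over a sum of index sets. -/
def piSigma {κ : I → Type*} (G : ∀ i, κ i → Type*) [∀ i k, Group (G i k)]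
    [∀ i k, TopologicalSpace (G i k)] :
    (∀ x : Σ i, κ i, G x.1 x.2) ≃ₜ* ∀ i k, G i k where
  toFun f i k := f ⟨i, k⟩
  invFun g x := g x.1 x.2
  left_inv _ := rfl
  right_inv _ := rfl
  map_mul' _ _ := rfl
  continuous_toFun := continuous_pi fun i => continuous_pi fun k => continuous_apply
    (⟨i, k⟩ : Σ i, κ i)
  continuous_invFun := continuous_pi fun x => (continuous_apply x.2).comp (continuous_apply x.1)

/-- A product of products of two. -/
def piProd (G H : I → Type*) [∀ i, Group (G i)] [∀ i, TopologicalSpace (G i)] [∀ i, Group (H i)]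
    [∀ i, TopologicalSpace (H i)] : (∀ i, G i × H i) ≃ₜ* (∀ i, G i) × (∀ i, H i) where
  toFun f := (fun i => (f i).1, fun i => (f i).2)
  invFun g i := (g.1 i, g.2 i)
  left_inv _ := rfl
  right_inv _ := rfl
  map_mul' _ _ := rfl
  continuous_toFun := (continuous_pi fun i => continuous_fst.comp (continuous_apply i)).prodMk
    (continuous_pi fun i => continuous_snd.comp (continuous_apply i))
  continuous_invFun := continuous_pi fun i =>
    ((continuous_apply i).comp continuous_fst).prodMk ((continuous_apply i).comp continuous_snd)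

end pi

/-! ### The groups -/

/-- The product of the cyclic groups of the orders `c i`. -/
abbrev Cyc {I : Type*} (c : I → ℕ) : Type _ := ∀ i, Multiplicative (ZMod (c i))

/-- A product of cyclic groups of prime power order in which every order occurs infinitely often. -/
def IsBig {I : Type*} (c : I → ℕ) : Prop :=
  (∀ i, IsPrimePow (c i)) ∧ ∀ q, IsPrimePow q → {i | c i = q}.Infinite

/-- **Only the multiplicities matter.** -/
theorem nonempty_cyc_equiv {I J : Type*} [Countable I] [Countable J] {c : I → ℕ} {c' : J → ℕ}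
    (hc : IsBig c) (hc' : IsBig c') : Nonempty (Cyc c ≃ₜ* Cyc c') := by
  have he : ∀ q : ℕ, Nonempty ({i // c i = q} ≃ {j // c' j = q}) := fun q => by
    by_cases hq : IsPrimePow q
    · haveI : Infinite {i // c i = q} := (hc.2 q hq).to_subtype
      haveI : Infinite {j // c' j = q} := (hc'.2 q hq).to_subtype
      exact nonempty_equiv_of_countable
    · haveI : IsEmpty {i // c i = q} := ⟨fun i => hq (i.2 ▸ hc.1 i.1)⟩
      haveI : IsEmpty {j // c' j = q} := ⟨fun j => hq (j.2 ▸ hc'.1 j.1)⟩
      exact ⟨Equiv.equivOfIsEmpty _ _⟩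
  set e : I ≃ J := Equiv.ofFiberEquiv fun q => (he q).some
  have hce : ∀ i, c' (e i) = c i := fun i => Equiv.ofFiberEquiv_map _ i
  refine ⟨(piCongr fun i => ?_).trans (piReindex e fun j => Multiplicative (ZMod (c' j)))⟩
  rw [hce i]
  exact ContinuousMulEquiv.refl _

/-- A cyclic group by its prime powers. -/
theorem exists_zmod_factors {n : ℕ} (hn : n ≠ 0) :
    ∃ (κ : Type) (_ : Fintype κ) (c : κ → ℕ), (∀ k, IsPrimePow (c k)) ∧
      Nonempty (Multiplicative (ZMod n) ≃* Cyc c) ∧
      ∀ q, IsPrimePow q → q ∣ n → (n / q).Coprime q → ∃ k, c k = q := by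
  refine ⟨n.primeFactors, inferInstance, fun p => (p : ℕ) ^ n.factorization p, fun p => ?_, ⟨?_⟩,
    fun q hq hdvd hcop => ?_⟩
  · have h1 := Nat.prime_of_mem_primeFactors p.2
    exact h1.isPrimePow.pow (Finsupp.mem_support_iff.1 (by
      rw [Nat.support_factorization]; exact p.2))
  · exact ((ZMod.equivPi n hn).toAddEquiv.toMultiplicative).trans
      (MulEquiv.piMultiplicative fun p : n.primeFactors => ZMod ((p : ℕ) ^ n.factorization p))
  · obtain ⟨l, a, hl, ha, rfl⟩ := hq
    rw [← Nat.prime_iff] at hl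
    refine ⟨⟨l, Nat.mem_primeFactors.2 ⟨hl, (dvd_pow_self l ha.ne').trans hdvd, hn⟩⟩, ?_⟩
    show l ^ n.factorization l = l ^ a
    have hnd : ¬ l ∣ n / l ^ a := fun h =>
      hl.one_lt.ne' (Nat.dvd_one.1 (hcop ▸ Nat.dvd_gcd h (dvd_pow_self l ha.ne')))
    conv_lhs => rw [← Nat.div_mul_cancel hdvd]
    rw [Nat.factorization_mul (fun h => hnd (by rw [h]; exact dvd_zero l)) (pow_ne_zero _
        hl.ne_zero),
      Finsupp.add_apply, Nat.factorization_eq_zero_of_not_dvd hnd, zero_add,
      hl.factorization_pow, Finsupp.single_eq_same]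

/-- A finite abelian group by prime powers. -/
theorem exists_cyc_equiv (G : Type*) [CommGroup G] [Finite G] :
    ∃ (κ : Type) (_ : Fintype κ) (c : κ → ℕ), (∀ k, IsPrimePow (c k)) ∧
      Nonempty (G ≃* Cyc c) := by
  obtain ⟨ι, _, n, hn, ⟨e⟩⟩ := CommGroup.equiv_prod_multiplicative_zmod_of_finite G
  choose κ hκ c hc he _ using fun i => exists_zmod_factors (n := n i) (by have := hn i; omega)
  refine ⟨Σ i, κ i, inferInstance, fun x => c x.1 x.2, fun x => hc _ _, ⟨?_⟩⟩
  exact e.trans ((MulEquiv.piCongrRight fun i => (he i).some).trans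
    (piSigma fun i k => Multiplicative (ZMod (c i k))).toMulEquiv.symm)

/-- An isomorphism of finite discrete groups is one of topological groups. -/
def ofDiscrete {G H : Type*} [Group G] [TopologicalSpace G] [DiscreteTopology G] [Group H]
    [TopologicalSpace H] [DiscreteTopology H] (e : G ≃* H) : G ≃ₜ* H :=
  { e with
    continuous_toFun := continuous_of_discreteTopology
    continuous_invFun := continuous_of_discreteTopology }

/-- **A product of finite groups with all prime powers as infinitely repeated factors.** -/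
theorem exists_isBig {J : Type} [Countable J] (G : J → Type) [∀ j, CommGroup (G j)]
    [∀ j, Finite (G j)] [∀ j, TopologicalSpace (G j)] [∀ j, DiscreteTopology (G j)]
    (m : J → ℕ) (hm : ∀ j, m j ≠ 0)
    (hG : ∀ j, ∃ (H : Type) (_ : CommGroup H) (_ : Finite H),
      Nonempty (G j ≃* Multiplicative (ZMod (m j)) × H))
    (h : ∀ q, IsPrimePow q → {j | q ∣ m j ∧ (m j / q).Coprime q}.Infinite) :
    ∃ (I : Type) (_ : Countable I) (c : I → ℕ), IsBig c ∧ Nonempty ((∀ j, G j) ≃ₜ* Cyc c) := by
  have hd : ∀ j, ∃ (κ : Type) (_ : Fintype κ) (c : κ → ℕ), (∀ k, IsPrimePow (c k)) ∧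
      Nonempty (G j ≃* Cyc c) ∧
      ∀ q, IsPrimePow q → q ∣ m j → (m j / q).Coprime q → ∃ k, c k = q := fun j => by
    obtain ⟨H, _, _, ⟨e⟩⟩ := hG j
    obtain ⟨κ₁, _, c₁, hc₁, ⟨e₁⟩, hq⟩ := exists_zmod_factors (hm j)
    obtain ⟨κ₂, _, c₂, hc₂, ⟨e₂⟩⟩ := exists_cyc_equiv H
    refine ⟨κ₁ ⊕ κ₂, inferInstance, Sum.elim c₁ c₂, Sum.rec hc₁ hc₂, ⟨?_⟩,
      fun q h1 h2 h3 => (hq q h1 h2 h3).elim fun k hk => ⟨Sum.inl k, hk⟩⟩
    exact e.trans ((e₁.prodCongr e₂).trans
      { toFun := fun x => Sum.rec x.1 x.2
        invFun := fun f => (fun k => f (Sum.inl k), fun k => f (Sum.inr k))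
        left_inv := fun _ => rfl
        right_inv := fun f => funext fun s => by cases s <;> rfl
        map_mul' := fun x y => funext fun s => by cases s <;> rfl })
  choose κ hκ c hc he hq using hd
  refine ⟨Σ j, κ j, inferInstance, fun x => c x.1 x.2, ⟨fun x => hc _ _, fun q hq' => ?_⟩, ⟨?_⟩⟩
  · refine Set.Infinite.of_image Sigma.fst ((h q hq').mono ?_)
    rintro j ⟨hd, hcop⟩
    obtain ⟨k, hk⟩ := hq j q hq' hd hcop
    exact ⟨⟨j, k⟩, hk, rfl⟩
  · exact (piCongr fun j => ofDiscrete (he j).some).trans
      (piSigma fun j k => Multiplicative (ZMod (c j k))).symm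

/-- All `n` by their prime powers. -/
theorem exists_isBig_all :
    ∃ (I : Type) (_ : Countable I) (c : I → ℕ), IsBig c ∧
      Nonempty ((∀ n : ℕ+, Multiplicative (ZMod n)) ≃ₜ* Cyc c) := by
  haveI : ∀ n : ℕ+, NeZero (n : ℕ) := fun n => ⟨n.ne_zero⟩
  refine exists_isBig (fun n : ℕ+ => Multiplicative (ZMod n)) (fun n => (n : ℕ))
    (fun n => n.ne_zero)
    (fun n => ⟨PUnit, inferInstance, inferInstance,
      ⟨(MulEquiv.prodUnique (M := Multiplicative (ZMod n)) (N := PUnit)).symm⟩⟩) fun q hq => ?_
  have hq1 := hq.one_lt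
  refine Set.infinite_of_injective_forall_mem
    (f := fun t : ℕ => (⟨q * (q * t + 1), by positivity⟩ : ℕ+)) (fun s t hst => ?_) fun t =>
      ⟨dvd_mul_right _ _, ?_⟩
  · have h1 : q * (q * s + 1) = q * (q * t + 1) := congrArg PNat.val hst
    simpa [show q ≠ 0 by omega] using h1
  · show (q * (q * t + 1) / q).Coprime q
    rw [Nat.mul_div_cancel_left _ (by omega), add_comm]
    exact (Nat.coprime_add_mul_left_left 1 q t).2 (Nat.coprime_one_left q)

end FA.AbelianQuad

end
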