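import Fermat.Agent.AbelianGaloisQuad.Completion
import Fermat.Agent.RedeiReichardt.Ideals
import Mathlib.NumberTheory.LegendreSymbol.QuadraticReciprocity

/-!
# Split primes and the torsion over them

For a prime `D ≡ 3 (mod 4)` an odd prime `p ≡ 1 (mod D)` splits in `ℚ(√-D)`. At a prime over it
the residues are those of `ℤ / p`, and the finite part of the units over `p` has a factor cyclic of
order `p - 1`.
-/

set_option autoImplicit false
set_option linter.unusedSectionVars false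
set_option linter.style.haveILetI false

noncomputable section

open NumberField IsDedekindDomain WithZero Module
open FA.QuadFormsNF (valued_algebraMap)
open scoped Classical

namespace FA.AbelianQuad

/-- A retraction gives a factor. -/
theorem exists_prod_equiv {G C : Type*} [CommGroup G] [CommGroup C] (φ : G →* C) (s : C →* G)
    (h : ∀ c, φ (s c) = c) : Nonempty (G ≃* C × φ.ker) :=
  ⟨{  toFun := fun g => (φ g, ⟨g / s (φ g), by rw [MonoidHom.mem_ker, map_div, h, div_self']⟩)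
      invFun := fun x => s x.1 * x.2
      left_inv := fun g => mul_div_cancel (s (φ g)) g
      right_inv := fun x => by
        have hx : φ (s x.1 * x.2) = x.1 := by
          rw [map_mul, h, MonoidHom.mem_ker.1 x.2.2, mul_one]
        refine Prod.ext hx (Subtype.ext ?_)
        simp only [hx, mul_div_cancel_left]
      map_mul' := fun a b => by
        refine Prod.ext (map_mul φ a b) (Subtype.ext ?_)
        simp only [map_mul, Prod.mk_mul_mk, Subgroup.coe_mul, mul_div_mul_comm] }⟩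

variable {K : Type} [Field K] [NumberField K] {p : ℕ} [hp : Fact p.Prime]

/-- `-D` is a square modulo the primes `≡ 1 (mod D)`. -/
theorem exists_sq_dvd {D : ℕ} (hD : D.Prime) (hD4 : D % 4 = 3) (hp2 : p ≠ 2) (hpD : p % D = 1) :
    ∃ a : ℤ, (p : ℤ) ∣ a ^ 2 + D ∧ ¬ (p : ℤ) ∣ a := by
  haveI : Fact D.Prime := ⟨hD⟩
  have hne : p ≠ D := fun e => by rw [e, Nat.mod_self] at hpD; exact zero_ne_one hpD
  have h1 : IsSquare ((p : ℕ) : ZMod D) := by
    rw [← ZMod.natCast_mod, hpD, Nat.cast_one]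
    exact IsSquare.one
  have hD0 : ((D : ℕ) : ZMod p) ≠ 0 := fun e =>
    hne ((Nat.prime_dvd_prime_iff_eq hp.out hD).1 ((ZMod.natCast_eq_zero_iff _ _).1 e))
  have hsq : IsSquare (((-(D : ℤ)) : ℤ) : ZMod p) := by
    rcases Nat.odd_mod_four_iff.1 (Nat.odd_iff.1 (hp.out.odd_of_ne_two hp2)) with h4 | h4
    · push_cast
      rw [neg_eq_neg_one_mul]
      refine IsSquare.mul (ZMod.exists_sq_eq_neg_one_iff.2 (by omega)) ?_
      exact (ZMod.exists_sq_eq_prime_iff_of_mod_four_eq_one h4 (by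
        rintro rfl
        omega)).2 h1
    · refine (legendreSym.eq_one_iff p (by push_cast; exact neg_ne_zero.2 hD0)).1 ?_
      rw [show -(D : ℤ) = -1 * D by ring, legendreSym.mul,
        (legendreSym.eq_neg_one_iff p).2 (by
          push_cast
          exact fun h => ZMod.exists_sq_eq_neg_one_iff.1 h h4),
        (legendreSym.eq_neg_one_iff p).2 (by
          push_cast
          exact fun h => ((ZMod.exists_sq_eq_prime_iff_of_mod_four_eq_three h4 hD4 hne).1 h) h1)]
      norm_num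
  obtain ⟨r, hr⟩ := hsq
  refine ⟨(r.val : ℤ), ?_, fun h => ?_⟩
  · rw [← ZMod.intCast_zmod_eq_zero_iff_dvd]
    push_cast at hr ⊢
    rw [ZMod.natCast_zmod_val]
    linear_combination -hr
  · rw [← ZMod.intCast_zmod_eq_zero_iff_dvd, Int.cast_natCast, ZMod.natCast_zmod_val] at h
    rw [h, mul_zero] at hr
    push_cast at hr
    exact hD0 (neg_eq_zero.1 hr)

variable (K p) in
/-- The units of the field among the units at the primes over `p`. -/
def unitsLoc : (𝓞 K)ˣ →* LocU K p :=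
  MonoidHom.pi fun v => Units.map (algebraMap (𝓞 K) (v.1.adicCompletionIntegers K)).toMonoidHom

theorem intCast_dvd_of_dvd (hK : finrank ℚ K = 2) {m : ℤ} (h : (p : 𝓞 K) ∣ (m : 𝓞 K)) :
    (p : ℤ) ∣ m := by
  have h1 := map_dvd (Algebra.norm ℤ) h
  rw [← map_natCast (algebraMap ℤ (𝓞 K)), ← eq_intCast (algebraMap ℤ (𝓞 K)) m,
    Algebra.norm_algebraMap, Algebra.norm_algebraMap, RingOfIntegers.rank, hK] at h1
  exact Int.Prime.dvd_pow' hp.out ((dvd_pow_self _ two_ne_zero).trans h1)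

theorem intCast_mem_iff {I : Ideal (𝓞 K)} (hI : I ≠ ⊤) (hpI : (p : 𝓞 K) ∈ I) {m : ℤ} :
    (m : 𝓞 K) ∈ I ↔ (p : ℤ) ∣ m := by
  refine ⟨fun hm => ?_, fun ⟨k, hk⟩ => by
    rw [hk, Int.cast_mul, Int.cast_natCast]; exact I.mul_mem_right _ hpI⟩
  by_contra hd
  obtain ⟨a, b, hab⟩ := (Nat.prime_iff_prime_int.1 hp.out).coprime_iff_not_dvd.2 hd
  refine hI ((Ideal.eq_top_iff_one I).2 ?_)
  have h1 := I.add_mem (I.mul_mem_left (a : 𝓞 K) hpI) (I.mul_mem_left (b : 𝓞 K) hm)
  have h2 := congrArg (fun t : ℤ => (t : 𝓞 K)) hab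
  push_cast at h2
  rwa [h2] at h1

/-- **An unramified prime of degree one over `p`.** -/
theorem exists_split_prime (hK : finrank ℚ K = 2) {D : ℕ} (hD : D.Prime) (hD4 : D % 4 = 3)
    {s : 𝓞 K} (hs : s ^ 2 = -(D : 𝓞 K)) (hp2 : p ≠ 2) (hpD : p % D = 1) :
    ∃ v : HeightOneSpectrum (𝓞 K), (p : 𝓞 K) ∈ v.asIdeal ∧ (p : 𝓞 K) ∉ v.asIdeal ^ 2 ∧
      ∀ r : 𝓞 K, ∃ m : ℤ, r - (m : 𝓞 K) ∈ v.asIdeal := by
  obtain ⟨a, ⟨k, hk⟩, ha⟩ := exists_sq_dvd hD hD4 hp2 hpD
  obtain ⟨σ, hσs, -⟩ := FA.RedeiReichardt.exists_conj hK hD.ne_zero hs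
  set τ := MulSemiringAction.toRingHom (K ≃ₐ[ℚ] K) (𝓞 K) σ
  have hτ : τ s = -s := hσs
  have hk' : (a : 𝓞 K) ^ 2 + (D : 𝓞 K) = (p : 𝓞 K) * (k : 𝓞 K) := by
    have := congrArg (fun t : ℤ => (t : 𝓞 K)) hk
    push_cast at this
    exact this
  set I : Ideal (𝓞 K) := Ideal.span {(p : 𝓞 K), s - (a : 𝓞 K)} with hIdef
  have hpI : (p : 𝓞 K) ∈ I := Ideal.subset_span (by simp)
  have hsI : s - (a : 𝓞 K) ∈ I := Ideal.subset_span (by simp)
  have hI : I ≠ ⊤ := fun htop => by
    obtain ⟨x, y, hxy⟩ := Ideal.mem_span_pair.1 ((Ideal.eq_top_iff_one I).1 htop)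
    have h2 := congrArg τ hxy
    simp only [map_add, map_mul, map_sub, map_natCast, map_intCast, map_one, hτ] at h2
    have h3 : (p : 𝓞 K) ∣ ((1 : ℤ) : 𝓞 K) :=
      ⟨x * τ x * p + x * τ y * (-s - a) + τ x * y * (s - a) + y * τ y * k, by
        push_cast
        linear_combination -(τ x * (p : 𝓞 K) + τ y * (-s - a)) * hxy - h2
          + y * τ y * hk' - y * τ y * hs⟩
    have h4 := Int.le_of_dvd one_pos (intCast_dvd_of_dvd hK h3)
    have := hp.out.two_le
    omega
  have hres : ∀ r : 𝓞 K, ∃ m : ℤ, r - (m : 𝓞 K) ∈ I := fun r => by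
    obtain ⟨A, B, N, hAB, -⟩ := FA.FieldClassBound.exists_double_coord hK
      (d := -(D : ℤ)) ((Nat.prime_iff_prime_int.1 hD).neg.squarefree)
      (neg_lt_zero.2 (Int.natCast_pos.2 hD.pos)) (FA.RedeiReichardt.coe_sqrt hs) r
    have hAB' : 2 * r = (A : 𝓞 K) + (B : 𝓞 K) * s := RingOfIntegers.coe_injective (by
      simp only [map_mul, map_add, map_ofNat, map_intCast]; exact hAB)
    obtain ⟨h, hh⟩ : ∃ h : ℕ, 2 * h = p + 1 := ⟨(p + 1) / 2, by
      have := Nat.odd_iff.1 (hp.out.odd_of_ne_two hp2); omega⟩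
    have hh' : 2 * (h : 𝓞 K) = (p : 𝓞 K) + 1 := by exact_mod_cast congrArg (Nat.cast (R := 𝓞 K)) hh
    refine ⟨(h : ℤ) * (A + B * a), ?_⟩
    rw [show r - (((h : ℤ) * (A + B * a) : ℤ) : 𝓞 K) =
        (-r) * (p : 𝓞 K) + ((h : 𝓞 K) * B) * (s - a) by
      push_cast
      linear_combination (h : 𝓞 K) * hAB' - r * hh']
    exact I.add_mem (I.mul_mem_left _ hpI) (I.mul_mem_left _ hsI)
  obtain ⟨M, hM, hIM⟩ := I.exists_le_maximal hI
  have hMI : M = I := by
    refine le_antisymm (fun r hr => ?_) hIM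
    obtain ⟨m, hm⟩ := hres r
    have h1 : (m : 𝓞 K) ∈ M := by
      have := M.sub_mem hr (hIM hm)
      rwa [sub_sub_cancel] at this
    have h2 := I.add_mem hm ((intCast_mem_iff hI hpI).2
      ((intCast_mem_iff hM.ne_top (hIM hpI)).1 h1))
    rwa [sub_add_cancel] at h2
  have hI0 : I ≠ ⊥ := fun e => (Nat.cast_ne_zero.2 hp.out.ne_zero)
    ((Submodule.eq_bot_iff I).1 e _ hpI)
  refine ⟨⟨I, (hMI ▸ hM).isPrime, hI0⟩, hpI, fun h => ?_, hres⟩
  set J : Ideal (𝓞 K) := Ideal.span {(p : 𝓞 K), -s - (a : 𝓞 K)} with hJdef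
  have hle : Ideal.span {(p : 𝓞 K)} ≤ I * I := by
    rw [Ideal.span_singleton_le_iff_mem, ← pow_two]; exact h
  have hIJ : I * J ≤ Ideal.span {(p : 𝓞 K)} := by
    rw [hIdef, hJdef, Ideal.span_mul_span', Ideal.span_le]
    rintro _ ⟨x, hx, y, hy, rfl⟩
    rw [SetLike.mem_coe, Ideal.mem_span_singleton]
    simp only [Set.mem_insert_iff, Set.mem_singleton_iff] at hx hy
    rcases hx with rfl | rfl
    · exact dvd_mul_right _ _
    rcases hy with rfl | rfl
    · exact dvd_mul_left _ _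
    exact ⟨k, by linear_combination hk' - hs⟩
  have hJI : J ≤ I := Ideal.dvd_iff_le.1 ((mul_dvd_mul_iff_left hI0).1
    (Ideal.dvd_iff_le.2 (hIJ.trans hle)))
  have h2a : ((-2 * a : ℤ) : 𝓞 K) ∈ I := by
    rw [show ((-2 * a : ℤ) : 𝓞 K) = (s - a) + (-s - a) by push_cast; ring]
    exact I.add_mem hsI (hJI (Ideal.subset_span (by simp)))
  rcases (Nat.prime_iff_prime_int.1 hp.out).dvd_or_dvd ((intCast_mem_iff hI hpI).1 h2a) with h' | h'
  · rw [dvd_neg] at h'
    have h4 := Int.le_of_dvd two_pos h'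
    have := hp.out.two_le
    omega
  · exact ha h'

/-- A root of unity congruent to `1` is `1` when `p` is odd and prime. -/
theorem eq_one_of_pow_eq_one {R : Type*} [CommRing R] [IsDomain R] [CharZero R]
    (ψ : R →+* ZMod p) (hψ : ∀ x, ψ x = 0 ↔ (p : R) ∣ x) (hp2 : p ≠ 2) :
    ∀ (N : ℕ), 0 < N → ∀ x : R, x ^ N = 1 → ψ x = 1 → x = 1 := by
  intro N
  induction N using Nat.strong_induction_on with
  | _ N ih =>
    intro hN x hx h1
    by_cases hN1 : N = 1
    · rwa [hN1, pow_one] at hx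
    obtain ⟨q, hq, N', rfl⟩ := Nat.exists_prime_and_dvd hN1
    have hN' : 0 < N' := Nat.pos_of_mul_pos_left hN
    have hy : x ^ q = 1 → x = 1 := fun hxq => by
      have hg := mul_geom_sum x q
      rw [hxq, sub_self, mul_eq_zero] at hg
      refine sub_eq_zero.1 (hg.resolve_right fun h0 => ?_)
      rcases eq_or_ne q p with rfl | hqp
      · obtain ⟨b, hb⟩ := (hψ (x - 1)).1 (by rw [map_sub, map_one, h1, sub_self])
        have hsum := odd_sq_dvd_geom_sum₂_sub (R := R) (a := 1) (b := b)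
          (hp.out.odd_of_ne_two hp2)
        rw [show 1 + (q : R) * b = x by rw [← hb, add_sub_cancel]] at hsum
        simp only [one_pow, mul_one] at hsum
        rw [h0, zero_sub, dvd_neg, pow_two] at hsum
        have hq0 : (q : R) ≠ 0 := Nat.cast_ne_zero.2 hq.ne_zero
        have h2 := (hψ 1).2 ((mul_dvd_mul_iff_left hq0).1 (by rwa [mul_one]))
        rw [map_one] at h2
        exact one_ne_zero h2
      · have h2 := congrArg ψ h0
        simp only [map_sum, map_pow, h1, one_pow, Finset.sum_const, Finset.card_range,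
          nsmul_eq_mul, mul_one, map_zero] at h2
        exact hqp ((Nat.prime_dvd_prime_iff_eq hp.out hq).1
          ((ZMod.natCast_eq_zero_iff _ _).1 h2)).symm
    have hyq : x ^ q = 1 :=
      ih N' (lt_mul_of_one_lt_left hN' hq.one_lt) hN' (x ^ q) (by rw [← pow_mul, hx])
        (by rw [map_pow, h1, one_pow])
    exact hy hyq

/-- **The residues at a split prime.** -/
theorem exists_residue (hK : finrank ℚ K = 2) {D : ℕ} (hD : D.Prime) (hD4 : D % 4 = 3)
    {s : 𝓞 K} (hs : s ^ 2 = -(D : 𝓞 K)) (hp2 : p ≠ 2) (hpD : p % D = 1) :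
    ∃ (v : Over K p) (ψ : v.1.adicCompletionIntegers K →+* ZMod p),
      ∀ x, ψ x = 0 ↔ (p : v.1.adicCompletionIntegers K) ∣ x := by
  obtain ⟨w, hw, hw2, hres⟩ := exists_split_prime hK hD hD4 hs hp2 hpD
  set v : Over K p := ⟨w, hw⟩
  have hnu : (p : v.1.adicCompletionIntegers K) ∈ nonunits _ := fun h => by
    rw [HeightOneSpectrum.adicCompletionIntegers.isUnit_iff_valued_eq_one] at h
    exact (valued_natCast_lt v).ne h
  haveI := CharP.quotient (v.1.adicCompletionIntegers K) p hnu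
  set P : Ideal (v.1.adicCompletionIntegers K) :=
    Ideal.span {(p : v.1.adicCompletionIntegers K)}
  set c : ZMod p →+* v.1.adicCompletionIntegers K ⧸ P := ZMod.castHom dvd_rfl _
  have hsurj : Function.Surjective c := fun y => by
    obtain ⟨y, rfl⟩ := Ideal.Quotient.mk_surjective y
    obtain ⟨r, hr⟩ := exists_sub_dvd (K := K) (p := p) (Pi.single v y) 1
    have hr := hr v
    rw [Pi.single_eq_same, pow_one] at hr
    obtain ⟨m, hm⟩ := hres r
    have hm' : (p : v.1.adicCompletionIntegers K) ∣ toLoc (r - (m : 𝓞 K)) v := by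
      rw [dvd_iff_valued, valued_toLoc, ← map_natCast
        (algebraMap (𝓞 K) (v.1.adicCompletionIntegers K))]
      show _ ≤ Valued.v (algebraMap K (v.1.adicCompletion K) (((p : 𝓞 K)) : K))
      rw [valued_algebraMap]
      change w.valuation K (algebraMap (𝓞 K) K (r - (m : 𝓞 K))) ≤
        w.valuation K (algebraMap (𝓞 K) K (p : 𝓞 K))
      rw [HeightOneSpectrum.valuation_of_algebraMap, HeightOneSpectrum.valuation_of_algebraMap]
      have h1 : w.intValuation (r - (m : 𝓞 K)) ≤ exp (-(1 : ℕ) : ℤ) :=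
        (w.intValuation_le_pow_iff_mem _ 1).2 (by rwa [pow_one])
      have h2 : ¬ w.intValuation (p : 𝓞 K) ≤ exp (-(2 : ℕ) : ℤ) := fun h =>
        hw2 ((w.intValuation_le_pow_iff_mem _ 2).1 h)
      refine h1.trans ?_
      obtain ⟨e, he⟩ : ∃ e : ℤ, w.intValuation (p : 𝓞 K) = exp e :=
        ⟨_, (exp_log (w.intValuation_ne_zero _ (Nat.cast_ne_zero.2 hp.out.ne_zero))).symm⟩
      rw [he, exp_le_exp] at h2 ⊢
      push_cast at h2 ⊢
      omega
    refine ⟨(m : ZMod p), ?_⟩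
    rw [map_intCast, ← map_intCast (Ideal.Quotient.mk P), eq_comm, Ideal.Quotient.eq,
      Ideal.mem_span_singleton]
    have h := dvd_add hr hm'
    rwa [map_sub, Pi.sub_apply, map_intCast, Pi.intCast_apply, sub_add_sub_cancel] at h
  haveI : Nontrivial (v.1.adicCompletionIntegers K ⧸ P) :=
    Ideal.Quotient.nontrivial_iff.2 (by rw [Ne, Ideal.span_singleton_eq_top]; exact hnu)
  set e := RingEquiv.ofBijective c ⟨c.injective, hsurj⟩
  refine ⟨v, e.symm.toRingHom.comp (Ideal.Quotient.mk P), fun x => ?_⟩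
  rw [RingHom.comp_apply, RingEquiv.toRingHom_eq_coe, RingHom.coe_coe,
    map_eq_zero_iff _ e.symm.injective, Ideal.Quotient.eq_zero_iff_mem, Ideal.mem_span_singleton]

/-- **The cyclic factor of order `p - 1`.** -/
theorem exists_torsion_factor (hK : finrank ℚ K = 2) {D : ℕ} (hD : D.Prime) (hD4 : D % 4 = 3)
    {s : 𝓞 K} (hs : s ^ 2 = -(D : 𝓞 K)) (hp2 : p ≠ 2) (hpD : p % D = 1)
    {F : Subgroup (LocU K p)} [Finite F] (hF : ∀ x : LocU K p, IsOfFinOrder x → x ∈ F)
    (e : (F × Multiplicative (ℤ_[p] × ℤ_[p])) ≃ₜ* LocU K p)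
    (he : ∀ f : F, e (f, 1) = (f : LocU K p)) :
    ∃ (φ : F →* (ZMod p)ˣ) (ι : (ZMod p)ˣ →* F), (∀ c, φ (ι c) = c) ∧
      ∀ u : (𝓞 K)ˣ, ∀ f : F, (f : LocU K p) = unitsLoc K p u →
        φ f = 1 → u = 1 := by
  obtain ⟨v, ψ, hψ⟩ := exists_residue hK hD hD4 hs hp2 hpD
  haveI := FA.QuadFormsNF.charZero_completion v.1
  haveI : CharZero (v.1.adicCompletionIntegers K) :=
    ⟨fun a b hab => Nat.cast_injective (R := v.1.adicCompletion K) (congrArg Subtype.val hab)⟩
  set φ₀ : LocU K p →* (ZMod p)ˣ := (Units.map ψ.toMonoidHom).comp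
    (Pi.evalMonoidHom (fun v : Over K p => (v.1.adicCompletionIntegers K)ˣ) v)
  have htor : ∀ (x : (v.1.adicCompletionIntegers K)ˣ), IsOfFinOrder x →
      Units.map ψ.toMonoidHom x = 1 → x = 1 := fun x hx h1 => by
    obtain ⟨N, hN, hxN⟩ := hx.exists_pow_eq_one
    exact Units.ext (eq_one_of_pow_eq_one ψ hψ hp2 N hN _
      (by rw [← Units.val_pow_eq_pow_val, hxN, Units.val_one]) (congrArg Units.val h1))
  set φ : F →* (ZMod p)ˣ := φ₀.comp F.subtype
  have hcard : Nat.card (ZMod p)ˣ = p - 1 := by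
    rw [Nat.card_eq_fintype_card, ZMod.card_units]
  have hsurj : Function.Surjective φ := fun c => by
    have hv : IsUnit (((c : ZMod p).val : v.1.adicCompletionIntegers K)) := by
      by_contra hnu
      rw [HeightOneSpectrum.adicCompletionIntegers.isUnit_iff_valued_eq_one] at hnu
      have hlt : Valued.v (((c : ZMod p).val : v.1.adicCompletionIntegers K) :
          v.1.adicCompletion K) < 1 :=
          lt_of_le_of_ne ((c : ZMod p).val : v.1.adicCompletionIntegers K).2 hnu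
      rw [← map_natCast (algebraMap (𝓞 K) (v.1.adicCompletionIntegers K))] at hlt
      change Valued.v (algebraMap K (v.1.adicCompletion K)
        ((((c : ZMod p).val : 𝓞 K)) : K)) < 1 at hlt
      rw [valued_algebraMap, HeightOneSpectrum.valuation_lt_one_iff_mem] at hlt
      have h1 : ((((c : ZMod p).val : ℕ) : ℤ) : 𝓞 K) ∈ v.1.asIdeal := by rwa [Int.cast_natCast]
      rw [intCast_mem_iff v.1.isPrime.ne_top v.2, ← ZMod.intCast_zmod_eq_zero_iff_dvd,
        Int.cast_natCast, ZMod.natCast_zmod_val] at h1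
      exact c.ne_zero h1
    set X : LocU K p := Pi.mulSingle v hv.unit
    set fz := e.symm X with hfz
    refine ⟨fz.1, ?_⟩
    have hX : e (fz.1, 1) * e (1, fz.2) = X := by
      rw [← map_mul, Prod.mk_mul_mk, mul_one, one_mul, hfz]
      exact e.apply_symm_apply X
    obtain ⟨u, hu⟩ := (show IsUnit (((p - 1 : ℕ) : ℤ_[p])) from by
      rw [PadicInt.isUnit_iff]
      exact PadicInt.norm_natCast_p_sub_one)
    have hz : φ₀ (e (1, fz.2)) = 1 := by
      have h1 : fz.2 = (Multiplicative.ofAdd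
          (((u⁻¹ : ℤ_[p]ˣ) : ℤ_[p]) • Multiplicative.toAdd fz.2)) ^ (p - 1) := by
        rw [← ofAdd_nsmul, ← Nat.cast_smul_eq_nsmul ℤ_[p], smul_smul, ← hu, Units.mul_inv,
          one_smul, ofAdd_toAdd]
      rw [h1, show ((1 : F), Multiplicative.ofAdd
          (((u⁻¹ : ℤ_[p]ˣ) : ℤ_[p]) • Multiplicative.toAdd fz.2) ^ (p - 1)) =
          ((1 : F), Multiplicative.ofAdd
          (((u⁻¹ : ℤ_[p]ˣ) : ℤ_[p]) • Multiplicative.toAdd fz.2)) ^ (p - 1) by
          rw [Prod.pow_mk, one_pow], map_pow, map_pow, ← hcard, pow_card_eq_one']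
    have h2 := congrArg φ₀ hX
    rw [map_mul, hz, mul_one, he] at h2
    refine h2.trans (Units.ext ?_)
    show ψ ((Pi.mulSingle v hv.unit : LocU K p) v : v.1.adicCompletionIntegers K) = c
    rw [Pi.mulSingle_eq_same, IsUnit.unit_spec, map_natCast, ZMod.natCast_zmod_val]
  obtain ⟨g, hg⟩ := IsCyclic.exists_generator (α := (ZMod p)ˣ)
  obtain ⟨f, hf⟩ := hsurj g
  have hfo : IsOfFinOrder ((f : LocU K p) v) :=
    (F.subtype.isOfFinOrder (isOfFinOrder_of_finite f)).apply v
  set f' : F := ⟨Pi.mulSingle v ((f : LocU K p) v),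
    hF _ ((MonoidHom.mulSingle (fun v : Over K p => (v.1.adicCompletionIntegers K)ˣ) v).isOfFinOrder
      hfo)⟩
  have hf' : φ f' = g := by
    rw [← hf]
    show Units.map ψ.toMonoidHom ((Pi.mulSingle v ((f : LocU K p) v) : LocU K p) v) = φ f
    rw [Pi.mulSingle_eq_same]
    rfl
  have hord : orderOf f' ∣ orderOf g := by
    refine orderOf_dvd_of_pow_eq_one (Subtype.ext ?_)
    show (Pi.mulSingle v ((f : LocU K p) v) : LocU K p) ^ orderOf g = 1
    rw [← Pi.mulSingle_pow, htor _ hfo.pow (by rw [map_pow]; exact hf ▸ pow_orderOf_eq_one (φ f)),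
      Pi.mulSingle_one]
  refine ⟨φ, monoidHomOfForallMemZpowers hg hord, fun c => ?_, fun u f hfu h1 => ?_⟩
  · obtain ⟨k, rfl⟩ := Subgroup.mem_zpowers_iff.1 (hg c)
    rw [map_zpow, monoidHomOfForallMemZpowers_apply_gen, map_zpow, hf']
  · have hx := htor _ ((F.subtype.isOfFinOrder (isOfFinOrder_of_finite f)).apply v) h1
    refine Units.ext (RingOfIntegers.coe_injective
      ((algebraMap K (v.1.adicCompletion K)).injective ?_))
    rw [Subgroup.coe_subtype, hfu] at hx
    have h3 := congrArg (fun t : (v.1.adicCompletionIntegers K)ˣ =>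
      ((t : v.1.adicCompletionIntegers K) : v.1.adicCompletion K)) hx
    rw [Units.val_one, map_one, map_one]
    exact h3

end FA.AbelianQuad

end
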